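/-
Galois representations from `J₀(N)`: eigenvectors for characters of rings of integer matrices, and
bases of saturated
submodules of `O^r`.
-/
import Mathlib.RingTheory.MatrixAlgebra
import Mathlib.RingTheory.Flat.Basic
import Mathlib.RingTheory.Flat.TorsionFree
import Mathlib.RingTheory.Ideal.AssociatedPrime.Localization
import Mathlib.RingTheory.Artinian.Module
import Mathlib.RingTheory.TensorProduct.Finite
import Mathlib.LinearAlgebra.FreeModule.PID
import Mathlib.LinearAlgebra.Matrix.ToLin

set_option autoImplicit false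

noncomputable section

open scoped Matrix TensorProduct

namespace Fermat.Agent.GaloisAdic

/-- A commutative ring of integer matrices has an eigenvector for every character with values in
a field of characteristic zero. -/
theorem exists_eigenvector {T : Type*} [CommRing T] {r : ℕ}
    (h : T →+* Matrix (Fin r) (Fin r) ℤ) (hinj : Function.Injective h)
    {K : Type*} [Field K] [CharZero K] (χ : T →+* K) :
    ∃ v : Fin r → K, v ≠ 0 ∧ ∀ t, (h t).map (Int.castRingHom K) *ᵥ v = χ t • v := by
  classical
  have : Module.Finite ℤ T :=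
    Module.Finite.of_injective h.toIntAlgHom.toLinearMap (by exact hinj)
  have : Module.IsTorsionFree ℤ K := inferInstance
  have : Module.Flat ℤ K := inferInstance
  let A := K ⊗[ℤ] T
  let ψ : A →ₐ[ℤ] Matrix (Fin r) (Fin r) K :=
    (matrixEquivTensor (Fin r) ℤ K).symm.toAlgHom.comp
      (Algebra.TensorProduct.map (AlgHom.id ℤ K) h.toIntAlgHom)
  have hψtmul : ∀ (c : K) (t : T), ψ (c ⊗ₜ t) = c • (h t).map (Int.castRingHom K) := by
    intro c t
    show (matrixEquivTensor (Fin r) ℤ K).symm
      (Algebra.TensorProduct.map (AlgHom.id ℤ K) h.toIntAlgHom (c ⊗ₜ t)) = _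
    rw [Algebra.TensorProduct.map_tmul, matrixEquivTensor_apply_symm]
    ext i j
    simp
  have hψinj : Function.Injective ψ := by
    refine (matrixEquivTensor (Fin r) ℤ K).symm.injective.comp ?_
    exact Module.Flat.lTensor_preserves_injective_linearMap h.toIntAlgHom.toLinearMap hinj
  let act : A →+* Module.End K (Fin r → K) :=
    (Matrix.toLinAlgEquiv' (R := K) (n := Fin r)).toAlgHom.toRingHom.comp ψ.toRingHom
  let _ : Module A (Fin r → K) := Module.compHom _ act
  have hsmul : ∀ (a : A) (v : Fin r → K), a • v = ψ a *ᵥ v := fun a v => by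
    show act a v = _
    simp [act]
  have : IsScalarTower K A (Fin r → K) := ⟨fun c a v => by
    induction a using TensorProduct.induction_on with
    | zero => rw [smul_zero, hsmul, map_zero, Matrix.zero_mulVec, smul_zero]
    | tmul d t =>
      rw [TensorProduct.smul_tmul', hsmul, hsmul, hψtmul, hψtmul, smul_eq_mul, mul_smul,
        Matrix.smul_mulVec]
    | add x y hx hy => rw [smul_add, add_smul, add_smul, hx, hy, smul_add]⟩
  have : Module.Finite A (Fin r → K) := Module.Finite.of_restrictScalars_finite K A (Fin r → K)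
  have : IsNoetherianRing A := IsNoetherianRing.of_finite K A
  have : IsArtinianRing A := isArtinian_of_tower K inferInstance
  let φ : A →ₐ[K] K := Algebra.TensorProduct.lift (AlgHom.id K K) χ.toIntAlgHom
    fun _ _ => Commute.all _ _
  have hmax : (RingHom.ker φ).IsMaximal :=
    RingHom.ker_isMaximal_of_surjective φ fun c => ⟨algebraMap K A c, φ.commutes c⟩
  have hann : Module.annihilator A (Fin r → K) = ⊥ := by
    refine (Submodule.eq_bot_iff _).2 fun a ha => hψinj ?_
    rw [map_zero]
    ext i j
    have h1 := congrFun ((hsmul a (Pi.single j 1)).symm.trans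
      (Module.mem_annihilator.1 ha (Pi.single j 1))) i
    simpa using h1
  have hmin : RingHom.ker φ ∈ (Module.annihilator A (Fin r → K)).minimalPrimes := by
    rw [hann]
    exact IsArtinianRing.mem_minimalPrimes bot_le
  have hass := Module.associatedPrimes.minimalPrimes_annihilator_subset_associatedPrimes _ _ hmin
  obtain ⟨-, v, hv⟩ := isAssociatedPrime_iff.1 hass
  have hker : ∀ a ∈ RingHom.ker φ, a • v = 0 := fun a ha => by
    rw [hv] at ha
    simpa using Submodule.mem_colon_singleton.1 ha
  refine ⟨v, fun h0 => hmax.ne_top ((Ideal.eq_top_iff_one _).2 ?_), fun t => ?_⟩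
  · rw [hv]
    exact Submodule.mem_colon_singleton.2 (by simp [h0])
  · have h1 := hker ((1 : K) ⊗ₜ t - χ t ⊗ₜ (1 : T)) (by
      rw [RingHom.mem_ker, map_sub, sub_eq_zero]
      show Algebra.TensorProduct.lift _ _ _ _ = Algebra.TensorProduct.lift _ _ _ _
      simp)
    rw [sub_smul, sub_eq_zero, hsmul, hsmul, hψtmul, hψtmul, one_smul, map_one,
      Matrix.map_one _ (map_zero _) (map_one _), Matrix.smul_mulVec, Matrix.one_mulVec] at h1
    exact h1

/-- A saturated submodule of `O^r` is the column space of a matrix with a left inverse. -/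
theorem exists_matrix_of_saturated {O : Type*} [CommRing O] [IsDomain O] [IsPrincipalIdealRing O]
    {r : ℕ} (M : Submodule O (Fin r → O))
    (hM : ∀ (c : O) (y : Fin r → O), c ≠ 0 → c • y ∈ M → y ∈ M) :
    ∃ (k : ℕ) (Y : Matrix (Fin r) (Fin k) O) (Z : Matrix (Fin k) (Fin r) O),
      Z * Y = 1 ∧ ∀ y, y ∈ M ↔ Y *ᵥ (Z *ᵥ y) = y := by
  classical
  have : Module.IsTorsionFree O ((Fin r → O) ⧸ M) := .of_smul_eq_zero fun c x hx => by
    obtain ⟨y, rfl⟩ := Submodule.mkQ_surjective M x
    by_cases hc : c = 0
    · exact Or.inl hc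
    · refine Or.inr ?_
      rw [← map_smul, Submodule.mkQ_apply, Submodule.Quotient.mk_eq_zero] at hx
      rw [Submodule.mkQ_apply, Submodule.Quotient.mk_eq_zero]
      exact hM c y hc hx
  have : Module.Free O ((Fin r → O) ⧸ M) := Module.free_of_finite_type_torsion_free'
  obtain ⟨s, hs⟩ := M.mkQ.exists_rightInverse_of_surjective (M.range_mkQ)
  obtain ⟨k, b⟩ := Submodule.basisOfPid (Pi.basisFun O (Fin r)) M
  let proj : (Fin r → O) →ₗ[O] (Fin r → O) := LinearMap.id - s.comp M.mkQ
  have hproj : ∀ y, proj y ∈ M := fun y => by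
    rw [← Submodule.Quotient.mk_eq_zero, ← Submodule.mkQ_apply]
    have := LinearMap.congr_fun hs (M.mkQ y)
    simp only [LinearMap.comp_apply, LinearMap.id_apply, Submodule.mkQ_apply] at this
    simp [proj, this]
  have hfix : ∀ y ∈ M, proj y = y := fun y hy => by
    have : M.mkQ y = 0 := (Submodule.Quotient.mk_eq_zero M).2 hy
    simp [proj, this]
  let f : (Fin k → O) →ₗ[O] (Fin r → O) := M.subtype.comp b.equivFun.symm.toLinearMap
  let g : (Fin r → O) →ₗ[O] (Fin k → O) :=
    b.equivFun.toLinearMap.comp (proj.codRestrict M hproj)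
  have hfg : ∀ y, f (g y) = proj y := fun y => by simp [f, g]
  have hgf : ∀ x, g (f x) = x := fun x => by
    have h1 : proj.codRestrict M hproj (f x) = b.equivFun.symm x :=
      Subtype.ext (hfix _ (Submodule.coe_mem _))
    show b.equivFun (proj.codRestrict M hproj (f x)) = x
    rw [h1, LinearEquiv.apply_symm_apply]
  refine ⟨k, LinearMap.toMatrix' f, LinearMap.toMatrix' g, ?_, fun y => ?_⟩
  · rw [← LinearMap.toMatrix'_comp, ← LinearMap.toMatrix'_id]
    exact congrArg _ (LinearMap.ext hgf)
  · rw [← Matrix.toLin'_apply, ← Matrix.toLin'_apply (M := LinearMap.toMatrix' g),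
      Matrix.toLin'_toMatrix', Matrix.toLin'_toMatrix', hfg]
    exact ⟨hfix y, fun h => h ▸ hproj y⟩

end Fermat.Agent.GaloisAdic
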