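/-
Galois representations from `J₀(N)`: the `p`-adic Galois matrices attached to the `p`-power torsion
of `J₀(N)`.

* `HeckeMatrices N`   : a faithful representation of the full Hecke algebra by integer matrices.
* `HeckeMatrices.IsTorsionIso` : an identification of `J₀(N)[pⁿ]` with `(ℤ/pⁿ)^r` carrying the
  integer matrices to the Hecke operators on `J₀(N)`.
* `TorsionFrame N p`  : a compatible system of such identifications.
* `TorsionFrame.galMatrix` : the resulting homomorphism `G_ℚ → M_r(ℤ_[p])`.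
-/
import Fermat.Prelude.Def_ModularCurve_HeckeModule
import Fermat.Prelude.Def_CuspForm_HeckeAlgebra
import Mathlib.NumberTheory.Padics.RingHoms
import Mathlib.LinearAlgebra.Matrix.ToLin
import Mathlib.CategoryTheory.CofilteredSystem
import Mathlib.CategoryTheory.Functor.OfSequence

set_option autoImplicit false

noncomputable section

open scoped Matrix

namespace Fermat.Agent.GaloisAdic

local notation "ℚbar" => AlgebraicClosure ℚ
local notation "Γℚ" => AlgebraicClosure ℚ ≃ₐ[ℚ] AlgebraicClosure ℚ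

open ModularCurve

/-- The generator of the full Hecke algebra attached to a prime: `U_q` if `q ∣ N`, else `T_q`. -/
def heckeGenAt (N : ℕ) [NeZero N] (q : Nat.Primes) :
    CuspForm.heckeAlgebra N 2 (∅ : Set ℕ) :=
  if h : (q : ℕ) ∣ N then CuspForm.heckeAlgebra.U q.2 h (Set.notMem_empty _)
  else CuspForm.heckeAlgebra.T q.2 h (Set.notMem_empty _)

variable (N : ℕ) [NeZero N]

/-- A faithful representation of the full weight two Hecke algebra by integer matrices. -/
structure HeckeMatrices where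
  /-- The size of the matrices. -/
  r : ℕ
  /-- The representation. -/
  mat : CuspForm.heckeAlgebra N 2 (∅ : Set ℕ) →+* Matrix (Fin r) (Fin r) ℤ
  injective : Function.Injective mat

variable {N}

/-- The matrix of the generator at `q`, modulo `m`. -/
def HeckeMatrices.genMod (H : HeckeMatrices N) (m : ℕ) (q : Nat.Primes) :
    Matrix (Fin H.r) (Fin H.r) (ZMod m) :=
  (H.mat (heckeGenAt N q)).map (Int.castRingHom (ZMod m))

/-- `e` identifies `(ℤ/pⁿ)^r` with `J₀(N)[pⁿ]`, carrying the integer matrices to the Hecke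
operators. -/
structure HeckeMatrices.IsTorsionIso (H : HeckeMatrices N) (p n : ℕ)
    (e : (Fin H.r → ZMod (p ^ n)) →+ JZero N) : Prop where
  injective : Function.Injective e
  mem_range_iff : ∀ x : JZero N, x ∈ Set.range e ↔ p ^ n • x = 0
  hecke : ∀ (q : Nat.Primes) (v : Fin H.r → ZMod (p ^ n)),
    heckeOperatorBar N q (e v) = e (H.genMod (p ^ n) q *ᵥ v)

variable (N) in
/-- A compatible system of identifications `(ℤ/pⁿ)^r ≃ J₀(N)[pⁿ]`. -/
structure TorsionFrame (p : ℕ) where
  /-- The integer matrices. -/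
  H : HeckeMatrices N
  /-- The identifications. -/
  e : ∀ n : ℕ, (Fin H.r → ZMod (p ^ n)) →+ JZero N
  isTorsionIso : ∀ n, H.IsTorsionIso p n (e n)
  compat : ∀ (n : ℕ) (v : Fin H.r → ZMod (p ^ (n + 1))),
    p • e (n + 1) v = e n fun i => ZMod.castHom (pow_dvd_pow p n.le_succ) (ZMod (p ^ n)) (v i)

/-- An element of `ℤ_[p]` from a compatible sequence of residues. -/
theorem exists_padicInt_of_compatible {p : ℕ} [Fact p.Prime] (a : ∀ n, ZMod (p ^ n))
    (ha : ∀ m n (h : m ≤ n), ZMod.castHom (pow_dvd_pow p h) (ZMod (p ^ m)) (a n) = a m) :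
    ∃ x : ℤ_[p], ∀ n, PadicInt.toZModPow n x = a n := by
  let f : ∀ n, Polynomial ℤ →+* ZMod (p ^ n) := fun n =>
    Polynomial.eval₂RingHom (Int.castRingHom _) (a n)
  have hf : ∀ k1 k2 (hk : k1 ≤ k2),
      (ZMod.castHom (pow_dvd_pow p hk) (ZMod (p ^ k1))).comp (f k2) = f k1 := by
    intro m n h
    apply Polynomial.ringHom_ext
    · intro c
      simp [f]
    · simpa [f] using ha m n h
  refine ⟨PadicInt.lift hf Polynomial.X, fun n => ?_⟩
  rw [← RingHom.comp_apply, PadicInt.lift_spec]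
  simp [f]

/-- Two matrices agreeing as functions of vectors are equal. -/
theorem matrix_eq_of_forall_mulVec {R ι : Type*} [CommSemiring R] [Fintype ι] [DecidableEq ι]
    {A B : Matrix ι ι R} (h : ∀ v, A *ᵥ v = B *ᵥ v) : A = B := by
  ext i j
  have h' := congrFun (h (Pi.single j 1)) i
  simpa using h'

omit [NeZero N] in
theorem gal_nsmul [NeZero N] (σ : Γℚ) (m : ℕ) (x : JZero N) : σ • m • x = m • σ • x :=
  (DistribMulAction.toAddMonoidHom (JZero N) σ).map_nsmul m x

namespace TorsionFrame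

variable {p : ℕ} [Fact p.Prime] (F : TorsionFrame N p)

theorem exists_galVec (σ : Γℚ) (n : ℕ) (v : Fin F.H.r → ZMod (p ^ n)) :
    ∃ w, F.e n w = σ • F.e n v := by
  have h : p ^ n • F.e n v = 0 := ((F.isTorsionIso n).mem_range_iff _).1 ⟨v, rfl⟩
  refine ((F.isTorsionIso n).mem_range_iff _).2 ?_
  rw [← gal_nsmul, h]
  exact (DistribMulAction.toAddMonoidHom (JZero N) σ).map_zero

/-- The Galois action on `(ℤ/pⁿ)^r`. -/
def galHom (σ : Γℚ) (n : ℕ) : (Fin F.H.r → ZMod (p ^ n)) →+ (Fin F.H.r → ZMod (p ^ n)) :=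
  AddMonoidHom.mk' (fun v => (F.exists_galVec σ n v).choose) fun u v => by
    apply (F.isTorsionIso n).injective
    rw [(F.exists_galVec σ n (u + v)).choose_spec, map_add, map_add, smul_add,
      (F.exists_galVec σ n u).choose_spec, (F.exists_galVec σ n v).choose_spec]

theorem e_galHom (σ : Γℚ) (n : ℕ) (v : Fin F.H.r → ZMod (p ^ n)) :
    F.e n (F.galHom σ n v) = σ • F.e n v :=
  (F.exists_galVec σ n v).choose_spec

/-- The Galois action on `(ℤ/pⁿ)^r`, as a matrix. -/
def galMatrixMod (σ : Γℚ) (n : ℕ) : Matrix (Fin F.H.r) (Fin F.H.r) (ZMod (p ^ n)) :=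
  LinearMap.toMatrix' ((F.galHom σ n).toZModLinearMap (p ^ n))

theorem e_galMatrixMod (σ : Γℚ) (n : ℕ) (v : Fin F.H.r → ZMod (p ^ n)) :
    F.e n (F.galMatrixMod σ n *ᵥ v) = σ • F.e n v := by
  rw [galMatrixMod, ← Matrix.toLin'_apply, Matrix.toLin'_toMatrix']
  exact F.e_galHom σ n v

theorem galMatrixMod_unique (σ : Γℚ) (n : ℕ) {A : Matrix (Fin F.H.r) (Fin F.H.r) (ZMod (p ^ n))}
    (h : ∀ v, F.e n (A *ᵥ v) = σ • F.e n v) : A = F.galMatrixMod σ n :=
  matrix_eq_of_forall_mulVec fun v =>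
    (F.isTorsionIso n).injective ((h v).trans (F.e_galMatrixMod σ n v).symm)

theorem map_galMatrixMod_succ (σ : Γℚ) (n : ℕ) :
    (F.galMatrixMod σ (n + 1)).map
        (ZMod.castHom (pow_dvd_pow p n.le_succ) (ZMod (p ^ n))) = F.galMatrixMod σ n := by
  refine F.galMatrixMod_unique σ n fun v => ?_
  obtain ⟨u, rfl⟩ : ∃ u : Fin F.H.r → ZMod (p ^ (n + 1)),
      (fun i => ZMod.castHom (pow_dvd_pow p n.le_succ) (ZMod (p ^ n)) (u i)) = v := by
    choose u hu using fun i => ZMod.castHom_surjective (pow_dvd_pow p n.le_succ) (v i)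
    exact ⟨u, funext hu⟩
  have h := RingHom.map_mulVec (ZMod.castHom (pow_dvd_pow p n.le_succ) (ZMod (p ^ n)))
    (F.galMatrixMod σ (n + 1)) u
  rw [← F.compat, gal_nsmul, ← F.e_galMatrixMod, F.compat]
  exact congrArg (F.e n) (funext fun i => (h i).symm)

theorem map_galMatrixMod (σ : Γℚ) {m n : ℕ} (h : m ≤ n) :
    (F.galMatrixMod σ n).map
        (ZMod.castHom (pow_dvd_pow p h) (ZMod (p ^ m))) = F.galMatrixMod σ m := by
  induction n, h using Nat.le_induction with
  | base => ext i j; simp [-ZMod.castHom_apply, RingHom.ext_zmod _ (RingHom.id _)]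
  | succ n hn ih =>
    rw [← ih, ← F.map_galMatrixMod_succ σ n, Matrix.map_map]
    congr 1
    funext x
    exact (DFunLike.congr_fun (RingHom.ext_zmod
      ((ZMod.castHom (pow_dvd_pow p hn) (ZMod (p ^ m))).comp
        (ZMod.castHom (pow_dvd_pow p n.le_succ) (ZMod (p ^ n)))) _) x).symm

theorem exists_galEntry (σ : Γℚ) (i j : Fin F.H.r) :
    ∃ x : ℤ_[p], ∀ n, PadicInt.toZModPow n x = F.galMatrixMod σ n i j :=
  exists_padicInt_of_compatible _ fun _ _ h => congrFun (congrFun (F.map_galMatrixMod σ h) i) j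

/-- The Galois matrix of a single element. -/
def galMatrixFun (σ : Γℚ) : Matrix (Fin F.H.r) (Fin F.H.r) ℤ_[p] :=
  Matrix.of fun i j => (F.exists_galEntry σ i j).choose

theorem map_galMatrixFun (σ : Γℚ) (n : ℕ) :
    (F.galMatrixFun σ).map (PadicInt.toZModPow n) = F.galMatrixMod σ n := by
  ext i j
  exact (F.exists_galEntry σ i j).choose_spec n

omit F in
theorem padicMatrix_ext {ι : Type*} {A B : Matrix ι ι ℤ_[p]}
    (h : ∀ n, A.map (PadicInt.toZModPow n) = B.map (PadicInt.toZModPow n)) : A = B := by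
  ext i j
  exact PadicInt.ext_of_toZModPow.1 fun n => congrFun (congrFun (h n) i) j

/-- The Galois action in the coordinates of the frame: a homomorphism `G_ℚ → M_r(ℤ_[p])`. -/
def galMatrix : Γℚ →* Matrix (Fin F.H.r) (Fin F.H.r) ℤ_[p] where
  toFun := F.galMatrixFun
  map_one' := padicMatrix_ext fun n => by
    rw [F.map_galMatrixFun, Matrix.map_one _ (map_zero _) (map_one _)]
    exact (F.galMatrixMod_unique 1 n fun v => by rw [Matrix.one_mulVec, one_smul]).symm
  map_mul' σ τ := padicMatrix_ext fun n => by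
    rw [F.map_galMatrixFun, Matrix.map_mul, F.map_galMatrixFun, F.map_galMatrixFun]
    exact (F.galMatrixMod_unique (σ * τ) n fun v => by
      rw [← Matrix.mulVec_mulVec, F.e_galMatrixMod, F.e_galMatrixMod, mul_smul]).symm

theorem map_galMatrix (σ : Γℚ) (n : ℕ) :
    (F.galMatrix σ).map (PadicInt.toZModPow n) = F.galMatrixMod σ n :=
  F.map_galMatrixFun σ n

/-- The defining property of `galMatrix`. -/
theorem e_galMatrix (σ : Γℚ) (n : ℕ) (v : Fin F.H.r → ZMod (p ^ n)) :
    F.e n ((F.galMatrix σ).map (PadicInt.toZModPow n) *ᵥ v) = σ • F.e n v := by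
  rw [F.map_galMatrix]
  exact F.e_galMatrixMod σ n v

/-- The Hecke algebra acting by `p`-adic matrices. -/
def heckeMatrix : CuspForm.heckeAlgebra N 2 (∅ : Set ℕ) →+* Matrix (Fin F.H.r) (Fin F.H.r) ℤ_[p] :=
  (Int.castRingHom ℤ_[p]).mapMatrix.comp F.H.mat

theorem map_heckeMatrix_gen (n : ℕ) (q : Nat.Primes) :
    (F.heckeMatrix (heckeGenAt N q)).map (PadicInt.toZModPow n) = F.H.genMod (p ^ n) q := by
  ext i j
  simp [heckeMatrix, HeckeMatrices.genMod]

omit F in
/-- A property of elements of the full Hecke algebra closed under the ring operations and true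
at the generators `heckeGenAt` holds everywhere. -/
theorem heckeAlgebra_induction {P : CuspForm.heckeAlgebra N 2 (∅ : Set ℕ) → Prop}
    (hgen : ∀ q, P (heckeGenAt N q)) (hint : ∀ a : ℤ, P (algebraMap ℤ _ a))
    (hadd : ∀ a b, P a → P b → P (a + b)) (hmul : ∀ a b, P a → P b → P (a * b))
    (t : CuspForm.heckeAlgebra N 2 (∅ : Set ℕ)) : P t := by
  obtain ⟨t, ht⟩ := t
  induction ht using Algebra.adjoin_induction with
  | mem x hx =>
    rcases hx with ⟨ℓ, hℓ, hℓN, -, rfl⟩ | ⟨q, hqN, hq, -, rfl⟩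
    · have h := hgen ⟨ℓ, hℓ⟩
      rw [heckeGenAt, dif_neg hℓN] at h
      exact h
    · have h := hgen ⟨q, hq⟩
      rw [heckeGenAt, dif_pos hqN] at h
      exact h
  | algebraMap a => exact hint a
  | add x y hx hy ihx ihy => exact hadd _ _ ihx ihy
  | mul x y hx hy ihx ihy => exact hmul _ _ ihx ihy

/-- The Galois matrices commute with the Hecke matrices, provided the Galois action commutes with
the Hecke operators. -/
theorem commute_galMatrix_heckeMatrix
    (hcomm : ∀ (σ : Γℚ) (q : Nat.Primes) (x : JZero N),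
      σ • heckeOperatorBar N q x = heckeOperatorBar N q (σ • x))
    (σ : Γℚ) (t : CuspForm.heckeAlgebra N 2 (∅ : Set ℕ)) :
    Commute (F.galMatrix σ) (F.heckeMatrix t) := by
  induction t using heckeAlgebra_induction with
  | hgen q =>
    refine padicMatrix_ext fun n => matrix_eq_of_forall_mulVec fun v => ?_
    apply (F.isTorsionIso n).injective
    rw [Matrix.map_mul, Matrix.map_mul, F.map_galMatrix, F.map_heckeMatrix_gen,
      ← Matrix.mulVec_mulVec, ← Matrix.mulVec_mulVec, F.e_galMatrixMod,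
      ← (F.isTorsionIso n).hecke, ← (F.isTorsionIso n).hecke, F.e_galMatrixMod, hcomm]
  | hint a =>
    rw [eq_intCast, map_intCast]
    exact (Int.cast_commute a _).symm
  | hadd a b ha hb => rw [map_add]; exact ha.add_right hb
  | hmul a b ha hb => rw [map_mul]; exact ha.mul_right hb

/-- An element fixing all `p`-power torsion has trivial matrix. -/
theorem galMatrix_eq_one {σ : Γℚ}
    (h : ∀ (n : ℕ) (x : JZero N), p ^ n • x = 0 → σ • x = x) : F.galMatrix σ = 1 :=
  padicMatrix_ext fun n => by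
    rw [F.map_galMatrix, Matrix.map_one _ (map_zero _) (map_one _)]
    exact (F.galMatrixMod_unique σ n fun v => by
      rw [Matrix.one_mulVec, h n _ (((F.isTorsionIso n).mem_range_iff _).1 ⟨v, rfl⟩)]).symm

/-- The Frobenius relation, transported to matrices. -/
theorem galMatrix_quadratic {τ : Γℚ} (q : Nat.Primes)
    (h : ∀ (n : ℕ) (x : JZero N), p ^ n • x = 0 →
      τ • τ • x - heckeOperatorBar N q (τ • x) + (q : ℕ) • x = 0) :
    F.galMatrix τ * F.galMatrix τ - F.heckeMatrix (heckeGenAt N q) * F.galMatrix τ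
      + (((q : ℕ) : Matrix (Fin F.H.r) (Fin F.H.r) ℤ_[p])) = 0 := by
  refine padicMatrix_ext fun n => matrix_eq_of_forall_mulVec fun v => ?_
  apply (F.isTorsionIso n).injective
  have hx := h n _ (((F.isTorsionIso n).mem_range_iff _).1 ⟨v, rfl⟩)
  simp only [← RingHom.mapMatrix_apply, map_add, map_sub, map_mul, map_natCast, map_zero]
  simp only [RingHom.mapMatrix_apply, F.map_galMatrix, F.map_heckeMatrix_gen]
  rw [Matrix.add_mulVec, Matrix.sub_mulVec, Matrix.zero_mulVec, map_zero, map_add, map_sub,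
    ← Matrix.mulVec_mulVec, ← Matrix.mulVec_mulVec, F.e_galMatrixMod, F.e_galMatrixMod,
    ← (F.isTorsionIso n).hecke, F.e_galMatrixMod, Matrix.natCast_mulVec]
  rw [show ((q : ℕ) : ZMod (p ^ n)) • v = (q : ℕ) • v from Nat.cast_smul_eq_nsmul _ _ _, map_nsmul]
  exact hx

/-- Continuity of the Galois matrices. -/
theorem galMatrix_continuous
    (hsmooth : ∀ x : JZero N, ∃ L : IntermediateField ℚ ℚbar, FiniteDimensional ℚ L ∧
      ∀ σ : Γℚ, (∀ y ∈ L, σ y = y) → σ • x = x) (n : ℕ) :
    ∃ L : IntermediateField ℚ ℚbar, FiniteDimensional ℚ L ∧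
      ∀ σ : Γℚ, (∀ y ∈ L, σ y = y) → ∀ i j,
        PadicInt.toZModPow n ((F.galMatrix σ - 1) i j) = 0 := by
  choose L hL hfix using hsmooth
  have : NeZero (p ^ n) := ⟨pow_ne_zero _ (Fact.out (p := p.Prime)).ne_zero⟩
  have := fun v => hL (F.e n v)
  refine ⟨⨆ v : Fin F.H.r → ZMod (p ^ n), L (F.e n v), inferInstance, fun σ hσ i j => ?_⟩
  have h1 : F.galMatrixMod σ n = 1 := (F.galMatrixMod_unique σ n fun v => by
    rw [Matrix.one_mulVec, hfix (F.e n v) σ fun y hy => hσ y
      (SetLike.le_def.1 (le_iSup (fun v => L (F.e n v)) v) hy)]).symm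
  have h2 := congrFun (congrFun (F.map_galMatrix σ n) i) j
  rw [Matrix.map_apply, h1] at h2
  rw [Matrix.sub_apply, map_sub, h2]
  rcases eq_or_ne i j with rfl | hij
  · simp
  · simp [Matrix.one_apply_ne hij]

end TorsionFrame

namespace HeckeMatrices

variable {p : ℕ} [Fact p.Prime] {H : HeckeMatrices N} {n : ℕ}

theorem reduce_aux (e : (Fin H.r → ZMod (p ^ (n + 1))) →+ JZero N)
    {u v : Fin H.r → ZMod (p ^ (n + 1))}
    (h : ∀ i, ZMod.castHom (pow_dvd_pow p n.le_succ) (ZMod (p ^ n)) (u i) =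
      ZMod.castHom (pow_dvd_pow p n.le_succ) (ZMod (p ^ n)) (v i)) :
    p • e u = p • e v := by
  have : p • u = p • v := by
    funext i
    obtain ⟨a, ha⟩ : ∃ a, u i - v i = (p ^ n : ℕ) * a := by
      obtain ⟨k, hk⟩ := ZMod.intCast_surjective (u i - v i)
      have h0 : ((k : ℤ) : ZMod (p ^ n)) = 0 := by
        rw [← map_intCast (ZMod.castHom (pow_dvd_pow p n.le_succ) (ZMod (p ^ n))), hk, map_sub,
          h i, sub_self]
      obtain ⟨c, rfl⟩ := (ZMod.intCast_zmod_eq_zero_iff_dvd k (p ^ n)).1 h0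
      exact ⟨c, by rw [← hk]; push_cast; ring⟩
    rw [Pi.smul_apply, Pi.smul_apply, nsmul_eq_mul, nsmul_eq_mul, ← sub_eq_zero, ← mul_sub, ha,
      ← mul_assoc, ← Nat.cast_mul, ← pow_succ', ZMod.natCast_self, zero_mul]
  rw [← map_nsmul, this, map_nsmul]

/-- Lifting a vector modulo `pⁿ` to one modulo `pⁿ⁺¹`. -/
def liftVec (v : Fin H.r → ZMod (p ^ n)) : Fin H.r → ZMod (p ^ (n + 1)) :=
  fun i => (ZMod.castHom_surjective (pow_dvd_pow p n.le_succ) (v i)).choose

theorem cast_liftVec (v : Fin H.r → ZMod (p ^ n)) (i : Fin H.r) :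
    ZMod.castHom (pow_dvd_pow p n.le_succ) (ZMod (p ^ n)) (liftVec v i) = v i :=
  (ZMod.castHom_surjective (pow_dvd_pow p n.le_succ) (v i)).choose_spec

/-- The identification one level below. -/
def reduceHom (e : (Fin H.r → ZMod (p ^ (n + 1))) →+ JZero N) :
    (Fin H.r → ZMod (p ^ n)) →+ JZero N :=
  AddMonoidHom.mk' (fun v => p • e (liftVec v)) fun u v => by
    refine (reduce_aux e (v := liftVec u + liftVec v) fun i => ?_).trans (by rw [map_add, nsmul_add])
    simp only [Pi.add_apply, map_add, cast_liftVec]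

theorem reduceHom_cast (e : (Fin H.r → ZMod (p ^ (n + 1))) →+ JZero N)
    (u : Fin H.r → ZMod (p ^ (n + 1))) :
    reduceHom e (fun i => ZMod.castHom (pow_dvd_pow p n.le_succ) (ZMod (p ^ n)) (u i)) =
      p • e u :=
  reduce_aux e fun i => cast_liftVec (H := H) (p := p) (n := n) _ i

theorem IsTorsionIso.reduceHom {e : (Fin H.r → ZMod (p ^ (n + 1))) →+ JZero N}
    (he : H.IsTorsionIso p (n + 1) e) : H.IsTorsionIso p n (HeckeMatrices.reduceHom e) where
  injective := by
    refine (injective_iff_map_eq_zero _).2 fun v hv => funext fun i => ?_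
    have h1 : p • liftVec v = 0 := he.injective (by rw [map_nsmul, map_zero]; exact hv)
    have h2 : p • liftVec v i = 0 := congrFun h1 i
    obtain ⟨k, hk⟩ := ZMod.intCast_surjective (liftVec v i)
    rw [← hk, nsmul_eq_mul, ← Int.cast_natCast, ← Int.cast_mul,
      ZMod.intCast_zmod_eq_zero_iff_dvd, pow_succ', Nat.cast_mul] at h2
    have h3 := Int.dvd_of_mul_dvd_mul_left
      (Nat.cast_ne_zero.2 (Fact.out (p := p.Prime)).ne_zero) h2
    rw [← cast_liftVec v i, ← hk, map_intCast]
    exact (ZMod.intCast_zmod_eq_zero_iff_dvd k (p ^ n)).2 h3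
  mem_range_iff x := by
    constructor
    · rintro ⟨v, rfl⟩
      show p ^ n • p • e (liftVec v) = 0
      rw [← mul_smul, ← pow_succ]
      exact (he.mem_range_iff _).1 ⟨_, rfl⟩
    · intro hx
      obtain ⟨w, rfl⟩ := (he.mem_range_iff x).2 (by rw [pow_succ', mul_smul, hx, smul_zero])
      have h1 : p ^ n • w = 0 := he.injective (by rw [map_nsmul, map_zero]; exact hx)
      have h2 : ∀ i, ∃ u : ZMod (p ^ (n + 1)), p • u = w i := fun i => by
        obtain ⟨k, hk⟩ := ZMod.intCast_surjective (w i)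
        have h3 : p ^ n • w i = 0 := congrFun h1 i
        rw [← hk, nsmul_eq_mul, ← Int.cast_natCast, ← Int.cast_mul,
          ZMod.intCast_zmod_eq_zero_iff_dvd, pow_succ, Nat.cast_mul] at h3
        obtain ⟨c, rfl⟩ := Int.dvd_of_mul_dvd_mul_left
          (Nat.cast_ne_zero.2 (pow_ne_zero _ (Fact.out (p := p.Prime)).ne_zero)) h3
        exact ⟨c, by rw [← hk, nsmul_eq_mul]; push_cast; ring⟩
      choose u hu using h2
      refine ⟨fun i => ZMod.castHom (pow_dvd_pow p n.le_succ) (ZMod (p ^ n)) (u i), ?_⟩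
      rw [reduceHom_cast, ← map_nsmul, show p • u = w from funext hu]
  hecke q v := by
    show heckeOperatorBar N q (p • e (liftVec v)) = _
    rw [map_nsmul, he.hecke]
    rw [← reduceHom_cast]
    congr 1
    funext i
    rw [RingHom.map_mulVec]
    simp only [Function.comp_def, cast_liftVec]
    rw [show (H.genMod (p ^ (n + 1)) q).map
        (ZMod.castHom (pow_dvd_pow p n.le_succ) (ZMod (p ^ n))) = H.genMod (p ^ n) q from by
      ext a b; simp [HeckeMatrices.genMod]]

end HeckeMatrices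

/-- Compatible frames exist as soon as identifications exist at every finite level. -/
theorem exists_torsionFrame {p : ℕ} [Fact p.Prime] (H : HeckeMatrices N)
    (h : ∀ n, ∃ e, H.IsTorsionIso p n e) : Nonempty (TorsionFrame N p) := by
  let C : ℕ → Type := fun n => {e // H.IsTorsionIso p n e}
  have hne : ∀ n, Nonempty (C n) := fun n => ⟨⟨_, (h n).choose_spec⟩⟩
  have hfin : ∀ n, Finite (C n) := fun n => by
    obtain ⟨e₀, he₀⟩ := h n
    have : NeZero (p ^ n) := ⟨pow_ne_zero _ (Fact.out (p := p.Prime)).ne_zero⟩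
    have : Finite (Set.range e₀) := (Set.finite_range e₀).to_subtype
    refine Finite.of_injective (β := (Fin H.r → ZMod (p ^ n)) → Set.range e₀)
      (fun e v => ⟨e.1 v, (he₀.mem_range_iff _).2 ((e.2.mem_range_iff _).1 ⟨v, rfl⟩)⟩) ?_
    intro a b hab
    exact Subtype.ext (AddMonoidHom.ext fun v => congrArg Subtype.val (congrFun hab v))
  let red : ∀ n, C (n + 1) ⟶ C n := fun n =>
    TypeCat.ofHom fun e => ⟨HeckeMatrices.reduceHom e.1, e.2.reduceHom⟩
  let G : CategoryTheory.Functor ℕᵒᵖ Type := CategoryTheory.Functor.ofOpSequence red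
  have : ∀ j : ℕᵒᵖ, Finite (G.obj j) := fun j => hfin j.unop
  have : ∀ j : ℕᵒᵖ, Nonempty (G.obj j) := fun j => hne j.unop
  obtain ⟨s, hs⟩ := nonempty_sections_of_finite_inverse_system G
  refine ⟨⟨H, fun n => (s (Opposite.op n)).1, fun n => (s (Opposite.op n)).2, fun n v => ?_⟩⟩
  have h1 := hs (CategoryTheory.homOfLE n.le_succ).op
  have h2 : red n (s (Opposite.op (n + 1))) = s (Opposite.op n) := by
    rw [← h1]; simp only [G, CategoryTheory.Functor.ofOpSequence_map_homOfLE_succ]; rfl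
  rw [← h2]
  exact (HeckeMatrices.reduceHom_cast _ v).symm

end Fermat.Agent.GaloisAdic
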