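/-
Galois representations from `J₀(N)`: the saturated lattice cut out in `O^r` by a subrepresentation
over the fraction
field, and the packaging of matrix representations as `GaloisRepAdic`.
-/
import Fermat.Agent.GaloisAdic.EigenVector
import Fermat.Prelude.Def_GaloisRep_Adic
import Mathlib.LinearAlgebra.Matrix.Charpoly.Coeff
import Mathlib.RingTheory.Localization.Integer
import Mathlib.LinearAlgebra.Dimension.StrongRankCondition

set_option autoImplicit false

noncomputable section

open scoped Matrix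
open Polynomial

namespace Fermat.Agent.GaloisAdic

/-- A matrix with a left inverse cuts out a saturated column space. -/
theorem mem_colSpace_of_smul {O : Type*} [CommRing O] [IsDomain O] {r k : ℕ}
    {Y : Matrix (Fin r) (Fin k) O} {Z : Matrix (Fin k) (Fin r) O} (hZY : Z * Y = 1)
    {c : O} {y : Fin r → O} (hc : c ≠ 0) (h : ∃ x, Y *ᵥ x = c • y) : Y *ᵥ (Z *ᵥ y) = y := by
  obtain ⟨x, hx⟩ := h
  have h1 : c • (Y *ᵥ (Z *ᵥ y)) = c • y := by
    rw [← Matrix.mulVec_smul, ← Matrix.mulVec_smul, ← hx, Matrix.mulVec_mulVec _ Z Y, hZY,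
      Matrix.one_mulVec]
  funext i
  exact mul_left_cancel₀ hc (by simpa using congrFun h1 i)

/-- Conjugate matrices have the same trace and determinant. -/
theorem trace_det_conj {L : Type*} [CommRing L] {e : ℕ} {P R σ : Matrix (Fin e) (Fin e) L}
    (hPR : P * R = 1) : (R * σ * P).trace = σ.trace ∧ (R * σ * P).det = σ.det := by
  constructor
  · rw [Matrix.trace_mul_comm, ← Matrix.mul_assoc, hPR, Matrix.one_mul]
  · rw [Matrix.det_mul_right_comm, Matrix.det_mul, ← Matrix.det_mul, Matrix.mul_assoc]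
    have h : R * P = 1 := mul_eq_one_comm.1 hPR
    rw [← Matrix.mul_assoc, h, Matrix.one_mul]

/-- A subrepresentation over the fraction field, given by `ι` with left inverse `π`, cuts out a
stable saturated lattice. -/
theorem exists_lattice {G O L : Type*} [Monoid G] [CommRing O] [IsDomain O]
    [IsPrincipalIdealRing O] [Field L] [Algebra O L] [IsFractionRing O L] {r e : ℕ}
    (ρ : G →* Matrix (Fin r) (Fin r) O) (ι : Matrix (Fin r) (Fin e) L)
    (π : Matrix (Fin e) (Fin r) L) (hπι : π * ι = 1) (σ : G →* Matrix (Fin e) (Fin e) L)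
    (hσ : ∀ g, (ρ g).map (algebraMap O L) * ι = ι * σ g) :
    ∃ (Y : Matrix (Fin r) (Fin e) O) (Z : Matrix (Fin e) (Fin r) O)
      (τ : G →* Matrix (Fin e) (Fin e) O),
      Z * Y = 1 ∧ (∀ g, ρ g * Y = Y * τ g) ∧ (∀ g, τ g = Z * ρ g * Y) ∧
      (∀ g, algebraMap O L (τ g).trace = (σ g).trace) ∧
      (∀ g, algebraMap O L (τ g).det = (σ g).det) := by
  classical
  set f := algebraMap O L
  let ff : (Fin r → O) →ₗ[O] (Fin r → L) := (Algebra.linearMap O L).compLeft (Fin r)
  let D : (Fin r → L) →ₗ[O] (Fin r → L) :=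
    ((ι * π).mulVecLin - LinearMap.id).restrictScalars O
  let M : Submodule O (Fin r → O) := LinearMap.ker (D.comp ff)
  have hmem : ∀ y, y ∈ M ↔ (ι * π) *ᵥ (f ∘ y) = f ∘ y := fun y => by
    simp only [M, LinearMap.mem_ker, LinearMap.comp_apply, D, LinearMap.restrictScalars_apply,
      LinearMap.sub_apply, LinearMap.id_apply, Matrix.mulVecLin_apply, sub_eq_zero]
    rfl
  have hsmul : ∀ (c : O) (y : Fin r → O), f ∘ (c • y) = f c • (f ∘ y) := fun c y => by
    funext i; simp [f]
  obtain ⟨k, Y, Z, hZY, hY⟩ := exists_matrix_of_saturated M fun c y hc h => by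
    rw [hmem] at h ⊢
    rw [hsmul, Matrix.mulVec_smul] at h
    exact smul_right_injective _ (IsFractionRing.injective O L |>.ne_iff' (map_zero _) |>.2 hc) h
  have hfix : ι * π * Y.map f = Y.map f := by
    refine Matrix.ext fun i j => ?_
    have hj : (fun i => Y i j) ∈ M := by
      rw [hY]
      have : (fun i => Y i j) = Y *ᵥ Pi.single j 1 := by funext i; simp
      rw [this, Matrix.mulVec_mulVec _ Z Y, hZY, Matrix.one_mulVec]
    exact congrFun ((hmem _).1 hj) i
  have hback : Y.map f * Z.map f * ι = ι := by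
    refine Matrix.ext fun i j => ?_
    obtain ⟨⟨b, hb⟩, hint⟩ := IsLocalization.exist_integer_multiples_of_finite
      (nonZeroDivisors O) fun a => ι a j
    choose y hy using hint
    simp only [Algebra.smul_def] at hy
    have hfy : f ∘ y = f b • fun a => ι a j := funext hy
    have hyM : y ∈ M := by
      rw [hmem, hfy, Matrix.mulVec_smul]
      congr 1
      funext a
      exact congrFun (congrFun (show ι * π * ι = ι by rw [Matrix.mul_assoc, hπι, Matrix.mul_one]) a) j
    have h1 : (Y.map f * Z.map f) *ᵥ (f ∘ y) = f ∘ y := by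
      rw [← Matrix.map_mul]
      funext a
      rw [← RingHom.map_mulVec, ← Matrix.mulVec_mulVec, (hY y).1 hyM]
      rfl
    rw [hfy, Matrix.mulVec_smul] at h1
    have h2 := congrFun (smul_right_injective _
      (IsFractionRing.injective O L |>.ne_iff' (map_zero _) |>.2 (nonZeroDivisors.ne_zero hb)) h1) i
    exact h2
  have hZYf : Z.map f * Y.map f = 1 := by
    rw [← Matrix.map_mul, hZY, Matrix.map_one _ (map_zero _) (map_one _)]
  have hPR : π * Y.map f * (Z.map f * ι) = 1 := by
    rw [Matrix.mul_assoc, ← Matrix.mul_assoc (Y.map f), hback, hπι]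
  have hRP : Z.map f * ι * (π * Y.map f) = 1 := by
    rw [Matrix.mul_assoc, ← Matrix.mul_assoc ι, hfix, hZYf]
  have hke : k = e := by
    have := (Matrix.toLin'OfInv hPR hRP).finrank_eq
    simpa using this.symm
  subst hke
  have hρY : ∀ g, ρ g * Y = Y * (Z * ρ g * Y) := fun g => by
    refine Matrix.map_injective (IsFractionRing.injective O L) ?_
    show (ρ g * Y).map f = (Y * (Z * ρ g * Y)).map f
    simp only [Matrix.map_mul]
    have h1 : (ρ g).map f * Y.map f = ι * (σ g * (π * Y.map f)) := by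
      rw [← Matrix.mul_assoc ι, ← hσ, Matrix.mul_assoc, ← Matrix.mul_assoc ι, hfix]
    rw [Matrix.mul_assoc (Z.map f), h1, ← Matrix.mul_assoc (Z.map f), ← Matrix.mul_assoc (Y.map f),
      ← Matrix.mul_assoc (Y.map f), hback]
  let τ : G →* Matrix (Fin k) (Fin k) O :=
    { toFun := fun g => Z * ρ g * Y
      map_one' := by rw [map_one, Matrix.mul_one, hZY]
      map_mul' := fun a b => by
        rw [map_mul, ← Matrix.mul_assoc Z, Matrix.mul_assoc _ (ρ b), hρY b]
        simp only [Matrix.mul_assoc] }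
  have hτ : ∀ g, (τ g).map f = Z.map f * ι * σ g * (π * Y.map f) := fun g => by
    show (Z * ρ g * Y).map f = _
    simp only [Matrix.map_mul]
    conv_lhs => rw [← hfix]
    simp only [← Matrix.mul_assoc]
    rw [Matrix.mul_assoc (Z.map f) _ ι, hσ]
    simp only [Matrix.mul_assoc]
  refine ⟨Y, Z, τ, hZY, hρY, fun g => rfl, fun g => ?_, fun g => ?_⟩
  · rw [← (trace_det_conj (σ := σ g) hPR).1, ← hτ]
    exact AddMonoidHom.map_trace f.toAddMonoidHom _
  · rw [← (trace_det_conj (σ := σ g) hPR).2, ← hτ]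
    exact RingHom.map_det f _

section Package

local notation "ℚbar" => AlgebraicClosure ℚ
local notation "Γℚ" => AlgebraicClosure ℚ ≃ₐ[ℚ] AlgebraicClosure ℚ

variable {O : Type} [CommRing O] [IsLocalRing O]

/-- A continuous homomorphism into `2 × 2` matrices as a `GaloisRepAdic`. -/
abbrev repOfMatrix (τ : Γℚ →* Matrix (Fin 2) (Fin 2) O)
    (hτ : ∀ n : ℕ, ∃ L : IntermediateField ℚ ℚbar, FiniteDimensional ℚ L ∧
      ∀ σ : Γℚ, (∀ x ∈ L, σ x = x) → ∀ i j,
        (τ σ - 1) i j ∈ IsLocalRing.maximalIdeal O ^ n) : GaloisRepAdic O where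
  V := Fin 2 → O
  finrank_eq := Module.finrank_fin_fun O
  ρ := (Matrix.toLinAlgEquiv' (R := O) (n := Fin 2)).toAlgHom.toMonoidHom.comp τ
  isAdicContinuous n := by
    obtain ⟨L, hL, h⟩ := hτ n
    refine ⟨L, hL, fun σ hσ v => ?_⟩
    have h1 : (Matrix.toLinAlgEquiv' (R := O) (n := Fin 2)).toAlgHom.toMonoidHom.comp τ σ v - v =
        ∑ i, ((τ σ - 1) *ᵥ v) i • (Pi.single i 1 : Fin 2 → O) := by
      rw [← pi_eq_sum_univ' ((τ σ - 1) *ᵥ v), Matrix.sub_mulVec, Matrix.one_mulVec]
      simp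
    rw [h1]
    refine Submodule.sum_mem _ fun i _ => Submodule.smul_mem_smul ?_ Submodule.mem_top
    simp only [Matrix.mulVec, dotProduct]
    exact Ideal.sum_mem _ fun j _ => Ideal.mul_mem_right _ _ (h σ hσ i j)

theorem repOfMatrix_apply (τ : Γℚ →* Matrix (Fin 2) (Fin 2) O) (hτ) (σ : Γℚ)
    (v : Fin 2 → O) : (repOfMatrix τ hτ).ρ σ v = τ σ *ᵥ v := by
  simp

theorem charpoly_repOfMatrix (τ : Γℚ →* Matrix (Fin 2) (Fin 2) O) (hτ) (σ : Γℚ) :
    LinearMap.charpoly ((repOfMatrix τ hτ).ρ σ) =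
      X ^ 2 - C (τ σ).trace * X + C (τ σ).det := by
  rw [← Matrix.charpoly_fin_two]
  exact Matrix.charpoly_toLin' (τ σ)

theorem det_repOfMatrix (τ : Γℚ →* Matrix (Fin 2) (Fin 2) O) (hτ) (σ : Γℚ) :
    LinearMap.det ((repOfMatrix τ hτ).ρ σ) = (τ σ).det :=
  LinearMap.det_toLin' (τ σ)

theorem repOfMatrix_eq_one (τ : Γℚ →* Matrix (Fin 2) (Fin 2) O) (hτ) {σ : Γℚ} (h : τ σ = 1) :
    (repOfMatrix τ hτ).ρ σ = 1 := by
  refine LinearMap.ext fun v => ?_
  rw [repOfMatrix_apply, h, Matrix.one_mulVec]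
  rfl

end Package

end Fermat.Agent.GaloisAdic
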