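/-
Galois representations from `J₀(N)`: the canonical map `ℤ_[p] → O` into a complete local ring with
`p ∈ 𝔪`, and the
`p`-adic cyclotomic character of `G_ℚ`.
-/
import Fermat.Prelude.Def_FLTPrelim_Ramification
import Fermat.Prelude.Def_EllipticCurve_FrobeniusTrace
import Mathlib.NumberTheory.Cyclotomic.CyclotomicCharacter
import Mathlib.RingTheory.AdicCompletion.RingHom
import Mathlib.RingTheory.RootsOfUnity.AlgebraicallyClosed
import Mathlib.NumberTheory.Padics.RingHoms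

set_option autoImplicit false

noncomputable section

namespace Fermat.Agent.GaloisAdic

local notation "ℚbar" => AlgebraicClosure ℚ
local notation "Γℚ" => AlgebraicClosure ℚ ≃ₐ[ℚ] AlgebraicClosure ℚ

variable {p : ℕ} [Fact p.Prime]

section PadicIntHom

variable (O : Type*) [CommRing O] [IsLocalRing O] (hp : (p : O) ∈ IsLocalRing.maximalIdeal O)

include hp in
omit [Fact p.Prime] in
theorem ringChar_quotient_dvd (n : ℕ) :
    ringChar (O ⧸ IsLocalRing.maximalIdeal O ^ n) ∣ p ^ n := by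
  rw [← CharP.cast_eq_zero_iff (O ⧸ IsLocalRing.maximalIdeal O ^ n), ← map_natCast
    (Ideal.Quotient.mk (IsLocalRing.maximalIdeal O ^ n)), Ideal.Quotient.eq_zero_iff_mem,
    Nat.cast_pow]
  exact Ideal.pow_mem_pow hp n

/-- `ℤ/pⁿ → O/𝔪ⁿ`. -/
def zmodPowHom (n : ℕ) : ZMod (p ^ n) →+* O ⧸ IsLocalRing.maximalIdeal O ^ n :=
  ZMod.castHom (ringChar_quotient_dvd O hp n) _

/-- `ℤ_[p] → O/𝔪ⁿ`. -/
def padicQuotHom (n : ℕ) : ℤ_[p] →+* O ⧸ IsLocalRing.maximalIdeal O ^ n :=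
  (zmodPowHom O hp n).comp (PadicInt.toZModPow n)

theorem factorPow_comp_padicQuotHom {m n : ℕ} (hle : m ≤ n) :
    (Ideal.Quotient.factorPow (IsLocalRing.maximalIdeal O) hle).comp (padicQuotHom O hp n) =
      padicQuotHom O hp m := by
  have h : (Ideal.Quotient.factorPow (IsLocalRing.maximalIdeal O) hle).comp (zmodPowHom O hp n) =
      (zmodPowHom O hp m).comp (ZMod.castHom (pow_dvd_pow p hle) (ZMod (p ^ m))) :=
    RingHom.ext_zmod _ _
  rw [padicQuotHom, padicQuotHom, ← RingHom.comp_assoc, h, RingHom.comp_assoc,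
    PadicInt.zmod_cast_comp_toZModPow _ _ hle]

variable [IsAdicComplete (IsLocalRing.maximalIdeal O) O]

/-- The canonical map `ℤ_[p] → O`, for `O` complete local with `p ∈ 𝔪`. -/
def padicIntHom : ℤ_[p] →+* O :=
  IsAdicComplete.liftRingHom (IsLocalRing.maximalIdeal O) (padicQuotHom O hp)
    (factorPow_comp_padicQuotHom O hp)

/-- `padicIntHom` maps the kernel of reduction modulo `pⁿ` into `𝔪ⁿ`. -/
theorem padicIntHom_mem_pow {n : ℕ} {x : ℤ_[p]} (hx : PadicInt.toZModPow n x = 0) :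
    padicIntHom O hp x ∈ IsLocalRing.maximalIdeal O ^ n := by
  rw [← Ideal.Quotient.eq_zero_iff_mem, padicIntHom, IsAdicComplete.mk_liftRingHom, padicQuotHom,
    RingHom.comp_apply, hx, map_zero]

/-- `padicIntHom` is compatible with local homomorphisms. -/
theorem comp_padicIntHom {O' : Type*} [CommRing O'] [IsLocalRing O']
    [IsAdicComplete (IsLocalRing.maximalIdeal O') O'] (hp' : (p : O') ∈ IsLocalRing.maximalIdeal O')
    (φ : O →+* O') [IsLocalHom φ] (x : ℤ_[p]) :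
    φ (padicIntHom O hp x) = padicIntHom O' hp' x := by
  refine (IsHausdorff.eq_iff_smodEq (I := IsLocalRing.maximalIdeal O')).2 fun n => ?_
  rw [SModEq.sub_mem, Ideal.smul_top_eq_map, Algebra.algebraMap_self, Ideal.map_id]
  obtain ⟨k, hk⟩ := ZMod.intCast_surjective (PadicInt.toZModPow n x)
  have h : PadicInt.toZModPow n (x - (k : ℤ_[p])) = 0 := by rw [map_sub, map_intCast, hk, sub_self]
  have h1 : φ (padicIntHom O hp (x - k)) ∈ IsLocalRing.maximalIdeal O' ^ n := by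
    refine Ideal.pow_right_mono ?_ n
      (Ideal.map_pow φ (IsLocalRing.maximalIdeal O) n ▸
        Ideal.mem_map_of_mem φ (padicIntHom_mem_pow O hp h))
    exact Ideal.map_le_iff_le_comap.2 fun a ha => map_nonunit φ a ha
  have h2 := padicIntHom_mem_pow O' hp' h
  simp only [map_sub, map_intCast] at h1 h2
  simpa using Submodule.sub_mem _ h1 h2

end PadicIntHom

variable (p)

/-- The `p`-adic cyclotomic character of `G_ℚ`, with values in `ℤ_[p]`. -/
def padicCyclo : Γℚ →* ℤ_[p] :=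
  (Units.coeHom ℤ_[p]).comp
    ((cyclotomicCharacter ℚbar p).comp (MulSemiringAction.toRingAut Γℚ ℚbar))

theorem apply_rootOfUnity (σ : Γℚ) {n : ℕ} {t : ℚbar} (ht : t ^ p ^ n = 1) :
    σ t = t ^ (PadicInt.toZModPow n (padicCyclo p σ)).val :=
  cyclotomicCharacter.spec p (MulSemiringAction.toRingAut Γℚ ℚbar σ) t ht

/-- If an automorphism raises every `pⁿ`-th root of unity to the power `m`, then the cyclotomic
character is `m` modulo `pⁿ`. -/
theorem toZModPow_padicCyclo_eq {n m : ℕ} (σ : Γℚ) (h : ∀ t : ℚbar, t ^ p ^ n = 1 → σ t = t ^ m) :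
    PadicInt.toZModPow n (padicCyclo p σ) = m := by
  have : NeZero (p ^ n) := ⟨pow_ne_zero _ (Fact.out (p := p.Prime)).ne_zero⟩
  obtain ⟨ζ, hζ⟩ := HasEnoughRootsOfUnity.exists_primitiveRoot ℚbar (p ^ n)
  have h1 := apply_rootOfUnity p σ hζ.pow_eq_one
  rw [h ζ hζ.pow_eq_one, pow_eq_pow_mod m hζ.pow_eq_one] at h1
  have h2 := hζ.pow_inj (Nat.mod_lt _ (Nat.pos_of_ne_zero (NeZero.ne _))) (ZMod.val_lt _) h1
  rw [← ZMod.natCast_zmod_val (PadicInt.toZModPow n (padicCyclo p σ)), ← h2, ZMod.natCast_mod]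

omit [Fact p.Prime] in
/-- Roots of unity lie in every valuation subring. -/
theorem mem_of_pow_eq_one (A : ValuationSubring ℚbar) {t : ℚbar} {k : ℕ} [NeZero k]
    (ht : t ^ k = 1) : t ∈ A := by
  obtain h | h := A.mem_or_inv_mem t
  · exact h
  · obtain ⟨m, rfl⟩ := Nat.exists_eq_succ_of_ne_zero (NeZero.ne k)
    have h0 : t ≠ 0 := fun h0 => by simp [h0] at ht
    have : t = (t⁻¹) ^ m := by
      rw [inv_pow]
      exact eq_inv_of_mul_eq_one_left (by rw [← pow_succ', ht])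
    rw [this]; exact pow_mem h m

omit [Fact p.Prime] in
theorem frobenius_residue {ℓ : ℕ} {A : ValuationSubring ℚbar} {τ : Γℚ}
    (hτ : A.IsFrobeniusAt τ ℓ) {t : ℚbar} (ht : t ∈ A) : τ t - t ^ ℓ ∈ A.nonunits := by
  obtain ⟨hdec, h⟩ := hτ
  have h1 := h (IsLocalRing.residue A ⟨t, ht⟩)
  rw [← IsLocalRing.ResidueField.residue_smul, ← map_pow, ← sub_eq_zero, ← map_sub,
    IsLocalRing.residue_eq_zero_iff] at h1
  exact A.mem_nonunits_iff_exists_mem_maximalIdeal.2 ⟨_, h1⟩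

omit [Fact p.Prime] in
theorem inertia_residue {A : ValuationSubring ℚbar} {σ : Γℚ}
    (hσ : σ ∈ A.inertiaSubgroupIn ℚ) {t : ℚbar} (ht : t ∈ A) : σ t - t ∈ A.nonunits := by
  obtain ⟨g, hg, rfl⟩ := hσ
  have hker : MulSemiringAction.toRingAut (A.decompositionSubgroup ℚ)
      (IsLocalRing.ResidueField A) g = 1 := MonoidHom.mem_ker.1 hg
  have h1 := DFunLike.congr_fun hker (IsLocalRing.residue A ⟨t, ht⟩)
  simp only [MulSemiringAction.toRingAut_apply, MulSemiringAction.toRingEquiv_apply_apply,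
    RingAut.one_apply] at h1
  rw [← IsLocalRing.ResidueField.residue_smul, ← sub_eq_zero, ← map_sub,
    IsLocalRing.residue_eq_zero_iff] at h1
  exact A.mem_nonunits_iff_exists_mem_maximalIdeal.2 ⟨_, h1⟩

/-- Distinct `pⁿ`-th roots of unity stay distinct modulo a prime `ℓ ≠ p`. -/
theorem eq_of_rootsOfUnity_congr {ℓ : ℕ} (hℓ : ℓ.Prime) (hℓp : ℓ ≠ p)
    {A : ValuationSubring ℚbar} (hA : A.LiesOverPrime ℓ) {n : ℕ} {a b : ℚbar}
    (ha : a ^ p ^ n = 1) (hb : b ^ p ^ n = 1) (hab : a - b ∈ A.nonunits) : a = b := by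
  have : NeZero (p ^ n) := ⟨pow_ne_zero _ (Fact.out (p := p.Prime)).ne_zero⟩
  by_contra hne
  have hbA := mem_of_pow_eq_one A hb
  have haA := mem_of_pow_eq_one A ha
  -- pass to the residue field
  set π := IsLocalRing.residue A
  have hres : π ⟨a, haA⟩ = π ⟨b, hbA⟩ := by
    rw [← sub_eq_zero, ← map_sub, IsLocalRing.residue_eq_zero_iff]
    obtain ⟨_, h⟩ := A.mem_nonunits_iff_exists_mem_maximalIdeal.1 hab
    exact h
  have hsum : ∑ i ∈ Finset.range (p ^ n), (⟨a, haA⟩ : A) ^ i * ⟨b, hbA⟩ ^ (p ^ n - 1 - i) = 0 := by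
    apply Subtype.ext
    push_cast
    have h := geom_sum₂_mul a b (p ^ n)
    rw [ha, hb, sub_self, mul_eq_zero] at h
    exact h.resolve_right (sub_ne_zero.2 hne)
  have hsum' := congrArg π hsum
  rw [map_sum, map_zero] at hsum'
  simp only [map_mul, map_pow, hres, ← pow_add] at hsum'
  have hb0 : π ⟨b, hbA⟩ ^ (p ^ n - 1) ≠ 0 := by
    refine pow_ne_zero _ fun h => one_ne_zero (α := IsLocalRing.ResidueField A) ?_
    have h' : (⟨b, hbA⟩ : A) ^ p ^ n = 1 := Subtype.ext hb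
    rw [← map_one π, ← h', map_pow, h, zero_pow (NeZero.ne _)]
  rw [Finset.sum_congr rfl fun i hi => by
    rw [Nat.add_sub_cancel' (Nat.le_sub_one_of_lt (Finset.mem_range.1 hi))],
    Finset.sum_const, Finset.card_range, nsmul_eq_mul, mul_eq_zero, or_iff_left hb0,
    Nat.cast_pow] at hsum'
  have hp0 : (p : IsLocalRing.ResidueField A) = 0 := eq_zero_of_pow_eq_zero hsum'
  have hl0 : (ℓ : IsLocalRing.ResidueField A) = 0 := by
    rw [← map_natCast π, IsLocalRing.residue_eq_zero_iff]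
    obtain ⟨_, h⟩ := A.mem_nonunits_iff_exists_mem_maximalIdeal.1 hA
    convert h using 1
    exact Subtype.ext (map_natCast A.subtype ℓ)
  obtain ⟨u, v, huv⟩ := Nat.Coprime.isCoprime
    ((Nat.coprime_primes hℓ (Fact.out (p := p.Prime))).2 hℓp)
  have h := congrArg (Int.cast : ℤ → IsLocalRing.ResidueField A) huv
  push_cast at h
  rw [hp0, hl0, mul_zero, mul_zero, add_zero] at h
  exact zero_ne_one h

theorem padicCyclo_frobenius {ℓ : ℕ} (hℓ : ℓ.Prime) (hℓp : ℓ ≠ p) {A : ValuationSubring ℚbar}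
    (hA : A.LiesOverPrime ℓ) {τ : Γℚ} (hτ : A.IsFrobeniusAt τ ℓ) :
    padicCyclo p τ = (ℓ : ℤ_[p]) := by
  refine PadicInt.ext_of_toZModPow.1 fun n => ?_
  rw [map_natCast]
  refine toZModPow_padicCyclo_eq p τ fun t ht => ?_
  exact eq_of_rootsOfUnity_congr p hℓ hℓp hA
    (by rw [← map_pow, ht, map_one]) (by rw [← pow_mul, mul_comm, pow_mul, ht, one_pow])
    (frobenius_residue hτ (mem_of_pow_eq_one A ht))

theorem padicCyclo_inertia {ℓ : ℕ} (hℓ : ℓ.Prime) (hℓp : ℓ ≠ p) {A : ValuationSubring ℚbar}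
    (hA : A.LiesOverPrime ℓ) {σ : Γℚ} (hσ : σ ∈ A.inertiaSubgroupIn ℚ) :
    padicCyclo p σ = 1 := by
  refine PadicInt.ext_of_toZModPow.1 fun n => ?_
  rw [map_one, ← Nat.cast_one]
  refine toZModPow_padicCyclo_eq p σ fun t ht => ?_
  exact eq_of_rootsOfUnity_congr p hℓ hℓp hA
    (by rw [← map_pow, ht, map_one]) (by rw [pow_one, ht])
    (by rw [pow_one]; exact inertia_residue hσ (mem_of_pow_eq_one A ht))

theorem padicCyclo_continuous (n : ℕ) :
    ∃ L : IntermediateField ℚ ℚbar, FiniteDimensional ℚ L ∧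
      ∀ σ : Γℚ, (∀ y ∈ L, σ y = y) → PadicInt.toZModPow n (padicCyclo p σ) = 1 := by
  have : NeZero (p ^ n) := ⟨pow_ne_zero _ (Fact.out (p := p.Prime)).ne_zero⟩
  obtain ⟨ζ, hζ⟩ := HasEnoughRootsOfUnity.exists_primitiveRoot ℚbar (p ^ n)
  refine ⟨IntermediateField.adjoin ℚ {ζ}, IntermediateField.adjoin.finiteDimensional
    (AlgebraicClosure.isAlgebraic ℚ |>.isAlgebraic ζ).isIntegral, fun σ hσ => ?_⟩
  rw [← Nat.cast_one]
  refine toZModPow_padicCyclo_eq p σ fun t ht => ?_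
  obtain ⟨i, -, rfl⟩ := hζ.eq_pow_of_pow_eq_one ht
  rw [pow_one, map_pow, hσ ζ (IntermediateField.mem_adjoin_simple_self ℚ ζ)]

end Fermat.Agent.GaloisAdic
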