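/-
Galois representations from `J₀(N)`: λ-adic Galois representations attached to characters of the
Hecke algebra.

* `TorsionFacts N p` : the properties of the Galois action on `J₀(N)[p^∞]` that are used.
* `IsConstituent`    : a representation sits, saturated, inside the χ-eigenspace of `Tₚ J₀(N) ⊗ O`.
* `exists_galoisRepAdic` : the representation attached to a character.
-/
import Fermat.Agent.GaloisAdic.Frame
import Fermat.Agent.GaloisAdic.PadicHom
import Fermat.Prelude.Def_GaloisRep_Adic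
import Fermat.Agent.GaloisAdic.EigenVector
import Fermat.Agent.GaloisAdic.Lattice
import Fermat.Agent.RepLemmas.Quadratic
import Fermat.Agent.RepLemmas.DVRExtension
import Fermat.Agent.Density.Main

set_option autoImplicit false

noncomputable section

open scoped Matrix
open Polynomial

namespace Fermat.Agent.GaloisAdic

/-- Two matrices agreeing as functions of vectors are equal (rectangular version). -/
theorem matrix_eq_of_forall_mulVec' {R ι κ : Type*} [CommSemiring R] [Fintype κ] [DecidableEq κ]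
    {A B : Matrix ι κ R} (h : ∀ v, A *ᵥ v = B *ᵥ v) : A = B := by
  ext i j
  simpa using congrFun (h (Pi.single j 1)) i

local notation "ℚbar" => AlgebraicClosure ℚ
local notation "Γℚ" => AlgebraicClosure ℚ ≃ₐ[ℚ] AlgebraicClosure ℚ

open ModularCurve

/-- The properties of the Galois action on `J₀(N)` used for the construction. -/
structure TorsionFacts (N : ℕ) [NeZero N] (p : ℕ) : Prop where
  smooth : ∀ x : JZero N, ∃ L : IntermediateField ℚ ℚbar, FiniteDimensional ℚ L ∧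
    ∀ σ : Γℚ, (∀ y ∈ L, σ y = y) → σ • x = x
  hecke_comm : ∀ (σ : Γℚ) (q : Nat.Primes) (x : JZero N),
    σ • heckeOperatorBar N q x = heckeOperatorBar N q (σ • x)
  unramified : ∀ q : ℕ, q.Prime → ¬ q ∣ N → q ≠ p →
    ∀ A : ValuationSubring ℚbar, A.LiesOverPrime q → ∀ σ ∈ A.inertiaSubgroupIn ℚ,
      ∀ (n : ℕ) (x : JZero N), p ^ n • x = 0 → σ • x = x
  frobenius : ∀ q : Nat.Primes, ¬ (q : ℕ) ∣ N → (q : ℕ) ≠ p →
    ∀ A : ValuationSubring ℚbar, A.LiesOverPrime q → ∀ τ : Γℚ, A.IsFrobeniusAt τ q →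
      ∀ (n : ℕ) (x : JZero N), p ^ n • x = 0 →
        τ • τ • x - heckeOperatorBar N q (τ • x) + (q : ℕ) • x = 0

variable {N : ℕ} [NeZero N] {p : ℕ} [Fact p.Prime]

/-- The representation `ρ` is a saturated piece of the χ-eigenspace of `Tₚ J₀(N) ⊗ O`. -/
def IsConstituent (F : TorsionFrame N p) {O : Type} [CommRing O] [IsLocalRing O]
    [IsAdicComplete (IsLocalRing.maximalIdeal O) O] (hp : (p : O) ∈ IsLocalRing.maximalIdeal O)
    {S : Set ℕ} (χ : CuspForm.heckeAlgebra N 2 S →+* O) (ρ : GaloisRepAdic O) : Prop :=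
  ∃ f : ρ.V →ₗ[O] (Fin F.H.r → O), Function.Injective f ∧
    (∀ (c : O) (y : Fin F.H.r → O), c ≠ 0 → c • y ∈ LinearMap.range f → y ∈ LinearMap.range f) ∧
    (∀ (σ : Γℚ) (v : ρ.V), f (ρ.ρ σ v) = (F.galMatrix σ).map (padicIntHom O hp) *ᵥ f v) ∧
    ∀ (t : CuspForm.heckeAlgebra N 2 S) (v : ρ.V),
      (F.H.mat (Subalgebra.inclusion (CuspForm.heckeAlgebra_mono (Set.empty_subset S)) t)).map
          (Int.castRingHom O) *ᵥ f v = χ t • f v

/-- `heckeGenAt` at a good prime is the Hecke operator `T_ℓ`. -/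
theorem heckeGenAt_eq_inclusion {S : Set ℕ} {ℓ : ℕ} (hℓ : ℓ.Prime) (hℓN : ¬ ℓ ∣ N) (hℓS : ℓ ∉ S) :
    heckeGenAt N ⟨ℓ, hℓ⟩ =
      Subalgebra.inclusion (CuspForm.heckeAlgebra_mono (Set.empty_subset S))
        (CuspForm.heckeAlgebra.T hℓ hℓN hℓS) := by
  rw [heckeGenAt, dif_neg hℓN]
  rfl

/-- The χ-eigencomponent is non-zero: a character of the Hecke algebra with values in a domain of
characteristic zero has an eigenvector for the integer matrices. -/
theorem exists_eigenvector_heckeMatrices (H : HeckeMatrices N) {S : Set ℕ} {O : Type} [CommRing O]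
    [IsDomain O] [CharZero O] (χ : CuspForm.heckeAlgebra N 2 S →+* O) :
    ∃ w : Fin H.r → O, w ≠ 0 ∧ ∀ t : CuspForm.heckeAlgebra N 2 S,
      (H.mat (Subalgebra.inclusion (CuspForm.heckeAlgebra_mono (Set.empty_subset S)) t)).map
        (Int.castRingHom O) *ᵥ w = χ t • w := by
  let h : CuspForm.heckeAlgebra N 2 S →+* Matrix (Fin H.r) (Fin H.r) ℤ := H.mat.comp
    (Subalgebra.inclusion (CuspForm.heckeAlgebra_mono (Set.empty_subset S))).toRingHom
  let K := FractionRing O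
  obtain ⟨v, hv0, hv⟩ := exists_eigenvector h
    (H.injective.comp (Subalgebra.inclusion_injective _)) ((algebraMap O K).comp χ)
  obtain ⟨⟨b, hb⟩, hint⟩ := IsLocalization.exist_integer_multiples_of_finite (nonZeroDivisors O) v
  choose y hy using hint
  simp only [Algebra.smul_def] at hy
  have hfy : algebraMap O K ∘ y = algebraMap O K b • v := funext hy
  refine ⟨y, ?_, fun t => funext fun i => IsFractionRing.injective O K ?_⟩
  · rintro rfl
    refine hv0 (smul_right_injective _ (IsFractionRing.injective O K |>.ne_iff' (map_zero _) |>.2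
      (nonZeroDivisors.ne_zero hb)) ?_)
    show algebraMap O K b • v = algebraMap O K b • 0
    rw [smul_zero, ← hfy]; funext i; simp
  · show algebraMap O K ((((h t).map (Int.castRingHom O)) *ᵥ y) i) = _
    rw [RingHom.map_mulVec, hfy,
      show ((h t).map (Int.castRingHom O)).map (algebraMap O K) = (h t).map (Int.castRingHom K) from
        Matrix.ext fun i j => by simp,
      Matrix.mulVec_smul, hv]
    simp only [Pi.smul_apply, smul_eq_mul, map_mul, RingHom.comp_apply, hy]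
    ring

/-- The Galois representation on the χ-eigenlattice, with the relations it satisfies. -/
theorem exists_eigenRep (F : TorsionFrame N p) (hF : TorsionFacts N p) (S : Set ℕ)
    (O : Type) [CommRing O] [IsDomain O] [IsDiscreteValuationRing O]
    [IsAdicComplete (IsLocalRing.maximalIdeal O) O] [CharZero O]
    (hp : (p : O) ∈ IsLocalRing.maximalIdeal O) (χ : CuspForm.heckeAlgebra N 2 S →+* O) :
    ∃ (k : ℕ) (_ : NeZero k) (Y : Matrix (Fin F.H.r) (Fin k) O) (Z : Matrix (Fin k) (Fin F.H.r) O)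
      (ρ₀ : Γℚ →* Matrix (Fin k) (Fin k) O),
      Z * Y = 1 ∧
      (∀ σ, (F.galMatrix σ).map (padicIntHom O hp) * Y = Y * ρ₀ σ) ∧
      (∀ σ, ρ₀ σ = Z * (F.galMatrix σ).map (padicIntHom O hp) * Y) ∧
      (∀ t : CuspForm.heckeAlgebra N 2 S,
        (F.H.mat (Subalgebra.inclusion (CuspForm.heckeAlgebra_mono (Set.empty_subset S)) t)).map
          (Int.castRingHom O) * Y = χ t • Y) := by
  classical
  let inc := Subalgebra.inclusion (CuspForm.heckeAlgebra_mono (N := N) (k := 2) (Set.empty_subset S))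
  let h : CuspForm.heckeAlgebra N 2 S →+* Matrix (Fin F.H.r) (Fin F.H.r) ℤ :=
    F.H.mat.comp inc.toRingHom
  let hO : CuspForm.heckeAlgebra N 2 S → Matrix (Fin F.H.r) (Fin F.H.r) O := fun t =>
    (h t).map (Int.castRingHom O)
  have hinj : Function.Injective h :=
    F.H.injective.comp (Subalgebra.inclusion_injective _)
  let K := FractionRing O
  obtain ⟨v, hv0, hv⟩ := exists_eigenvector h hinj ((algebraMap O K).comp χ)
  let M : Submodule O (Fin F.H.r → O) :=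
    ⨅ t, LinearMap.ker ((hO t).mulVecLin - χ t • LinearMap.id)
  have hmem : ∀ y, y ∈ M ↔ ∀ t, hO t *ᵥ y = χ t • y := fun y => by
    simp [M, sub_eq_zero]
  obtain ⟨k, Y, Z, hZY, hY⟩ := exists_matrix_of_saturated M fun c y hc hy => by
    rw [hmem] at hy ⊢
    intro t
    have h1 := hy t
    rw [Matrix.mulVec_smul, smul_comm] at h1
    exact smul_right_injective _ hc h1
  have hcast : ∀ t, (hO t).map (algebraMap O K) = (h t).map (Int.castRingHom K) := fun t => by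
    ext i j; simp [hO]
  obtain ⟨⟨b, hb⟩, hint⟩ := IsLocalization.exist_integer_multiples_of_finite (nonZeroDivisors O) v
  choose y hy using hint
  simp only [Algebra.smul_def] at hy
  have hfy : algebraMap O K ∘ y = algebraMap O K b • v := funext hy
  have hyM : y ∈ M := (hmem y).2 fun t => by
    funext i
    apply IsFractionRing.injective O K
    rw [RingHom.map_mulVec, hfy, hcast, Matrix.mulVec_smul, hv]
    simp only [Pi.smul_apply, smul_eq_mul, map_mul, RingHom.comp_apply, hy]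
    ring
  have hy0 : y ≠ 0 := by
    rintro rfl
    refine hv0 (smul_right_injective _ (IsFractionRing.injective O K |>.ne_iff' (map_zero _) |>.2
      (nonZeroDivisors.ne_zero hb)) ?_)
    show algebraMap O K b • v = algebraMap O K b • 0
    rw [smul_zero, ← hfy]; funext i; simp
  have hk : NeZero k := ⟨fun hk => hy0 (by
    subst hk
    rw [← (hY y).1 hyM, Subsingleton.elim (Z *ᵥ y) 0, Matrix.mulVec_zero])⟩
  let R : Γℚ →* Matrix (Fin F.H.r) (Fin F.H.r) O :=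
    (padicIntHom O hp).mapMatrix.toMonoidHom.comp F.galMatrix
  have hcol : ∀ t, hO t * Y = χ t • Y := fun t => by
    refine matrix_eq_of_forall_mulVec' fun x => ?_
    rw [← Matrix.mulVec_mulVec, Matrix.smul_mulVec]
    exact (hmem _).1 ((hY _).2 (by rw [Matrix.mulVec_mulVec _ Z Y, hZY, Matrix.one_mulVec])) t
  have hRcomm : ∀ σ t, Commute (R σ) (hO t) := fun σ t => by
    have h1 := (F.commute_galMatrix_heckeMatrix hF.hecke_comm σ (inc t)).map
      (padicIntHom O hp).mapMatrix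
    have h2 : (padicIntHom O hp).mapMatrix (F.heckeMatrix (inc t)) = hO t := by
      ext i j
      simp [TorsionFrame.heckeMatrix, hO, h]
    rwa [h2] at h1
  have hRY : ∀ σ, R σ * Y = Y * (Z * R σ * Y) := fun σ => by
    refine matrix_eq_of_forall_mulVec' fun x => ?_
    have hx : (R σ * Y) *ᵥ x ∈ M := (hmem _).2 fun t => by
      rw [Matrix.mulVec_mulVec, ← Matrix.mul_assoc, ← (hRcomm σ t).eq, Matrix.mul_assoc, hcol,
        Matrix.mul_smul, Matrix.smul_mulVec]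
    rw [← (hY _).1 hx]
    simp only [Matrix.mulVec_mulVec, Matrix.mul_assoc]
  let ρ₀ : Γℚ →* Matrix (Fin k) (Fin k) O :=
    { toFun := fun σ => Z * R σ * Y
      map_one' := by rw [map_one, Matrix.mul_one, hZY]
      map_mul' := fun a c => by
        rw [map_mul, ← Matrix.mul_assoc Z, Matrix.mul_assoc _ (R c), hRY c]
        simp only [Matrix.mul_assoc] }
  exact ⟨k, hk, Y, Z, ρ₀, hZY, hRY, fun σ => rfl, hcol⟩

theorem map_padicQuadratic {O : Type} [CommRing O] [IsLocalRing O]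
    [IsAdicComplete (IsLocalRing.maximalIdeal O) O] (hp : (p : O) ∈ IsLocalRing.maximalIdeal O)
    {r : ℕ} {A B : Matrix (Fin r) (Fin r) ℤ_[p]} {q : ℕ}
    (h : A * A - B * A + (q : Matrix (Fin r) (Fin r) ℤ_[p]) = 0) :
    A.map (padicIntHom O hp) * A.map (padicIntHom O hp) -
      B.map (padicIntHom O hp) * A.map (padicIntHom O hp) + (q : Matrix (Fin r) (Fin r) O) = 0 := by
  have h1 := congrArg (padicIntHom O hp).mapMatrix h
  simpa only [map_add, map_sub, map_mul, map_natCast, map_zero, RingHom.mapMatrix_apply] using h1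

/-- A vector is congruent to another modulo `I` if the matrices are. -/
theorem mul_sub_mem {O : Type*} [CommRing O] (I : Ideal O) {a b c d : ℕ}
    {P : Matrix (Fin a) (Fin b) O} {A : Matrix (Fin b) (Fin c) O} {Q : Matrix (Fin c) (Fin d) O}
    (h : ∀ i j, A i j ∈ I) (i : Fin a) (j : Fin d) : (P * A * Q) i j ∈ I := by
  rw [Matrix.mul_apply]
  refine Ideal.sum_mem _ fun x _ => Ideal.mul_mem_right _ _ ?_
  rw [Matrix.mul_apply]
  exact Ideal.sum_mem _ fun y _ => Ideal.mul_mem_left _ _ (h y x)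

/-- Continuity and ramification of the representation on the eigenlattice. -/
theorem eigenRep_continuous (F : TorsionFrame N p) (hF : TorsionFacts N p)
    {O : Type} [CommRing O] [IsLocalRing O] [IsAdicComplete (IsLocalRing.maximalIdeal O) O]
    (hp : (p : O) ∈ IsLocalRing.maximalIdeal O) {k : ℕ} {Y : Matrix (Fin F.H.r) (Fin k) O}
    {Z : Matrix (Fin k) (Fin F.H.r) O} (hZY : Z * Y = 1) (ρ₀ : Γℚ →* Matrix (Fin k) (Fin k) O)
    (hρ₀ : ∀ σ, ρ₀ σ = Z * (F.galMatrix σ).map (padicIntHom O hp) * Y) (n : ℕ) :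
    ∃ L : IntermediateField ℚ ℚbar, FiniteDimensional ℚ L ∧
      ∀ σ : Γℚ, (∀ x ∈ L, σ x = x) →
        (∀ i j, (ρ₀ σ - 1) i j ∈ IsLocalRing.maximalIdeal O ^ n) ∧
          padicIntHom O hp (padicCyclo p σ) - 1 ∈ IsLocalRing.maximalIdeal O ^ n := by
  obtain ⟨L₁, hL₁, h₁⟩ := F.galMatrix_continuous hF.smooth n
  obtain ⟨L₂, hL₂, h₂⟩ := padicCyclo_continuous p n
  refine ⟨L₁ ⊔ L₂, IntermediateField.finiteDimensional_sup L₁ L₂, fun σ hσ => ⟨fun i j => ?_, ?_⟩⟩
  · rw [hρ₀, show Z * (F.galMatrix σ).map (padicIntHom O hp) * Y - 1 =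
      Z * ((F.galMatrix σ - 1).map (padicIntHom O hp)) * Y by
        rw [Matrix.map_sub _ (map_sub _), Matrix.map_one _ (map_zero _) (map_one _),
          Matrix.mul_sub, Matrix.sub_mul, Matrix.mul_one, hZY]]
    refine mul_sub_mem _ (fun a b => padicIntHom_mem_pow O hp ?_) i j
    exact h₁ σ (fun y hy => hσ y (SetLike.le_def.1 (le_sup_left (b := L₂)) hy)) a b
  · rw [← map_one (padicIntHom O hp), ← map_sub]
    refine padicIntHom_mem_pow O hp ?_
    rw [map_sub, h₂ σ (fun y hy => hσ y (SetLike.le_def.1 (le_sup_right (a := L₁)) hy)), map_one,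
      sub_self]

/-- The quadratic relation at a good Frobenius element, on the eigenlattice. -/
theorem eigenRep_frobenius (F : TorsionFrame N p) (hF : TorsionFacts N p) {S : Set ℕ}
    {O : Type} [CommRing O] [IsLocalRing O] [IsAdicComplete (IsLocalRing.maximalIdeal O) O]
    (hp : (p : O) ∈ IsLocalRing.maximalIdeal O) {χ : CuspForm.heckeAlgebra N 2 S →+* O} {k : ℕ}
    {Y : Matrix (Fin F.H.r) (Fin k) O}
    {Z : Matrix (Fin k) (Fin F.H.r) O} (hZY : Z * Y = 1) (ρ₀ : Γℚ →* Matrix (Fin k) (Fin k) O)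
    (hRY : ∀ σ, (F.galMatrix σ).map (padicIntHom O hp) * Y = Y * ρ₀ σ)
    (hcol : ∀ t : CuspForm.heckeAlgebra N 2 S,
      (F.H.mat (Subalgebra.inclusion (CuspForm.heckeAlgebra_mono (Set.empty_subset S)) t)).map
        (Int.castRingHom O) * Y = χ t • Y)
    {ℓ : ℕ} (hℓ : ℓ.Prime) (hℓN : ¬ ℓ ∣ N) (hℓS : ℓ ∉ S) (hℓp : ℓ ≠ p)
    {A : ValuationSubring ℚbar} (hA : A.LiesOverPrime ℓ) {τ : Γℚ} (hτ : A.IsFrobeniusAt τ ℓ) :
    RepLemmas.QuadRel (ρ₀ τ) (χ (CuspForm.heckeAlgebra.T hℓ hℓN hℓS))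
      (padicIntHom O hp (padicCyclo p τ)) := by
  have h := map_padicQuadratic hp (F.galMatrix_quadratic ⟨ℓ, hℓ⟩
    (hF.frobenius ⟨ℓ, hℓ⟩ hℓN hℓp A hA τ hτ))
  have hH : (F.heckeMatrix (heckeGenAt N ⟨ℓ, hℓ⟩)).map (padicIntHom O hp) * Y =
      χ (CuspForm.heckeAlgebra.T hℓ hℓN hℓS) • Y := by
    rw [← hcol, heckeGenAt_eq_inclusion hℓ hℓN hℓS]
    congr 1
    ext i j
    simp [TorsionFrame.heckeMatrix]
  have h1 := congrArg (fun M => Z * (M * Y)) h
  simp only [Matrix.add_mul, Matrix.sub_mul, Matrix.mul_assoc, hRY, Matrix.zero_mul,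
    Matrix.mul_zero] at h1
  rw [← Matrix.mul_assoc (Matrix.map (F.galMatrix τ) _) Y, hRY,
    ← Matrix.mul_assoc (Matrix.map (F.heckeMatrix _) _) Y, hH] at h1
  simp only [Matrix.smul_mul, Matrix.mul_smul, Matrix.mul_add, Matrix.mul_sub,
    ← Matrix.mul_assoc, hZY, Matrix.one_mul] at h1
  rw [padicCyclo_frobenius p hℓ hℓp hA hτ, map_natCast, RepLemmas.QuadRel]
  convert h1 using 2
  rw [Matrix.mul_assoc, show ((ℓ : Matrix (Fin F.H.r) (Fin F.H.r) O)) * Y = (ℓ : O) • Y from by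
      ext i j; rw [← Matrix.diagonal_natCast, Matrix.diagonal_mul]; simp, Matrix.mul_smul, hZY]

/-- The quadratic relation is closed: it holds at `g` if it holds arbitrarily close to `g`. -/
theorem quadRel_of_approx {O : Type*} [CommRing O] (I : Ideal O) [IsHausdorff I O]
    {G : Type*} [Group G] {k : ℕ} [NeZero k] (ρ : G →* Matrix (Fin k) (Fin k) O) (ω : G →* O)
    (g : G)
    (h : ∀ n : ℕ, ∃ g' : G, (∀ i j, ρ g' i j - ρ g i j ∈ I ^ n) ∧
      (∀ i j, ρ g'⁻¹ i j - ρ g⁻¹ i j ∈ I ^ n) ∧ ω g' - ω g ∈ I ^ n ∧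
      ∃ t, RepLemmas.QuadRel (ρ g') t (ω g')) :
    ∃ t, RepLemmas.QuadRel (ρ g) t (ω g) := by
  classical
  have hinv : ∀ x, ρ x * ρ x⁻¹ = 1 := fun x => by rw [← map_mul, mul_inv_cancel, map_one]
  let Φ : G → Matrix (Fin k) (Fin k) O := fun x => ρ x + ω x • ρ x⁻¹
  refine ⟨Φ g 0 0, ?_⟩
  suffices hΦ : Φ g = Φ g 0 0 • 1 by
    have h1 : ρ g * Φ g = Φ g 0 0 • ρ g := by
      conv_lhs => rw [hΦ]
      rw [mul_smul_comm, mul_one]
    unfold RepLemmas.QuadRel
    rw [← h1]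
    simp only [Φ, mul_add, mul_smul_comm, hinv]
    abel
  ext i j
  refine (IsHausdorff.eq_iff_smodEq (I := I)).2 fun n => ?_
  rw [SModEq.sub_mem, Ideal.smul_top_eq_map, Algebra.algebraMap_self, Ideal.map_id]
  obtain ⟨g', h1, h2, h3, t, ht⟩ := h n
  have hg' : Φ g' = t • 1 := by
    have h4 := congrArg (fun M => ρ g'⁻¹ * M) ht
    have h5 : ρ g'⁻¹ * ρ g' = 1 := by rw [← map_mul, inv_mul_cancel, map_one]
    simp only [mul_add, mul_sub, mul_smul_comm, ← mul_assoc, h5, one_mul, mul_one, mul_zero] at h4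
    exact eq_of_sub_eq_zero (by rw [← h4]; simp only [Φ]; abel)
  have hclose : ∀ a b, Φ g' a b - Φ g a b ∈ I ^ n := fun a b => by
    have h6 : Φ g' a b - Φ g a b = (ρ g' a b - ρ g a b) +
        (ω g' * (ρ g'⁻¹ a b - ρ g⁻¹ a b) + (ω g' - ω g) * ρ g⁻¹ a b) := by
      simp only [Φ, Matrix.add_apply, Matrix.smul_apply, smul_eq_mul]
      ring
    rw [h6]
    exact Ideal.add_mem _ (h1 a b)
      (Ideal.add_mem _ (Ideal.mul_mem_left _ _ (h2 a b)) (Ideal.mul_mem_right _ _ h3))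
  have ha := hclose i j
  have hb := hclose 0 0
  rw [hg'] at ha hb
  show Φ g i j - (Φ g 0 0 • (1 : Matrix (Fin k) (Fin k) O)) i j ∈ _
  rw [Matrix.smul_apply] at ha hb ⊢
  rw [Matrix.one_apply_eq] at hb
  have h7 : Φ g i j - Φ g 0 0 • (1 : Matrix (Fin k) (Fin k) O) i j =
      -(t • (1 : Matrix (Fin k) (Fin k) O) i j - Φ g i j) +
        (1 : Matrix (Fin k) (Fin k) O) i j * (t • (1 : O) - Φ g 0 0) := by
    simp only [smul_eq_mul]
    ring
  rw [h7]
  exact Ideal.add_mem _ (neg_mem ha) (Ideal.mul_mem_left _ _ hb)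

/-- The quadratic relation everywhere on the eigenlattice. -/
theorem eigenRep_quadRel (F : TorsionFrame N p) (hF : TorsionFacts N p) {S : Set ℕ}
    (T₀ : Finset ℕ) (hS : ∀ ℓ : ℕ, ℓ.Prime → ℓ ∈ S → ℓ ∈ T₀)
    {O : Type} [CommRing O] [IsLocalRing O] [IsAdicComplete (IsLocalRing.maximalIdeal O) O]
    (hp : (p : O) ∈ IsLocalRing.maximalIdeal O) {χ : CuspForm.heckeAlgebra N 2 S →+* O} {k : ℕ}
    [NeZero k] {Y : Matrix (Fin F.H.r) (Fin k) O}
    {Z : Matrix (Fin k) (Fin F.H.r) O} (hZY : Z * Y = 1) (ρ₀ : Γℚ →* Matrix (Fin k) (Fin k) O)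
    (hρ₀ : ∀ σ, ρ₀ σ = Z * (F.galMatrix σ).map (padicIntHom O hp) * Y)
    (hRY : ∀ σ, (F.galMatrix σ).map (padicIntHom O hp) * Y = Y * ρ₀ σ)
    (hcol : ∀ t : CuspForm.heckeAlgebra N 2 S,
      (F.H.mat (Subalgebra.inclusion (CuspForm.heckeAlgebra_mono (Set.empty_subset S)) t)).map
        (Int.castRingHom O) * Y = χ t • Y)
    (σ : Γℚ) : ∃ t, RepLemmas.QuadRel (ρ₀ σ) t (padicIntHom O hp (padicCyclo p σ)) := by
  classical
  let ω : Γℚ →* O := (padicIntHom O hp).toMonoidHom.comp (padicCyclo p)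
  refine quadRel_of_approx (IsLocalRing.maximalIdeal O) ρ₀ ω σ fun n => ?_
  obtain ⟨L, hL, hcont⟩ := eigenRep_continuous F hF hp hZY ρ₀ hρ₀ n
  obtain ⟨ℓ, hℓ, hℓT, A, hA, τ, hτ, ⟨j, hj⟩, -⟩ :=
    Density.exists_frobenius_pow σ L (T₀ ∪ (N * p).primeFactors)
  rw [Finset.mem_union, not_or, Nat.mem_primeFactors_of_ne_zero
    (mul_ne_zero (NeZero.ne N) (Fact.out (p := p.Prime)).ne_zero)] at hℓT
  have hℓN : ¬ ℓ ∣ N := fun h => hℓT.2 ⟨hℓ, dvd_mul_of_dvd_left h p⟩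
  have hℓp : ℓ ≠ p := fun h => hℓT.2 ⟨hℓ, h ▸ dvd_mul_left p N⟩
  have hℓS : ℓ ∉ S := fun h => hℓT.1 (hS ℓ hℓ h)
  have hh : ∀ x ∈ L, (σ⁻¹ * τ ^ j) x = x := fun x hx => by
    rw [AlgEquiv.mul_apply, ← hj x hx]
    exact σ.symm_apply_apply x
  have hh' : ∀ x ∈ L, (σ⁻¹ * τ ^ j)⁻¹ x = x := fun x hx => by
    conv_lhs => rw [← hh x hx]
    exact (σ⁻¹ * τ ^ j).symm_apply_apply x
  refine ⟨τ ^ j, fun a b => ?_, fun a b => ?_, ?_, ?_⟩
  · rw [← Matrix.sub_apply, show ρ₀ (τ ^ j) - ρ₀ σ = ρ₀ σ * (ρ₀ (σ⁻¹ * τ ^ j) - 1) * 1 by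
      rw [Matrix.mul_one, Matrix.mul_sub, ← map_mul, mul_inv_cancel_left, Matrix.mul_one]]
    exact mul_sub_mem _ (hcont _ hh).1 a b
  · rw [← Matrix.sub_apply,
      show ρ₀ (τ ^ j)⁻¹ - ρ₀ σ⁻¹ = 1 * (ρ₀ (σ⁻¹ * τ ^ j)⁻¹ - 1) * ρ₀ σ⁻¹ by
        rw [Matrix.one_mul, Matrix.sub_mul, ← map_mul, mul_inv_rev, inv_inv, mul_assoc,
          mul_inv_cancel, mul_one, Matrix.one_mul]]
    exact mul_sub_mem _ (hcont _ hh').1 a b
  · have h1 : ω (τ ^ j) - ω σ = ω σ * (ω (σ⁻¹ * τ ^ j) - 1) := by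
      rw [mul_sub, ← map_mul, mul_inv_cancel_left, mul_one]
    rw [h1]
    exact Ideal.mul_mem_left _ _ (hcont _ hh).2
  · rw [map_pow ρ₀, map_pow ω]
    exact (eigenRep_frobenius F hF hp hZY ρ₀ hRY hcol hℓ hℓN hℓS hℓp hA hτ).exists_pow j

/-- The λ-adic representation attached to a character of the Hecke algebra. Besides the Frobenius
characteristic polynomials and ramification, it is either a constituent of the Tate module, or
it has a stable line which is a direct factor. -/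
theorem exists_galoisRepAdic (F : TorsionFrame N p) (hF : TorsionFacts N p)
    (S : Set ℕ) (T₀ : Finset ℕ) (hS : ∀ ℓ : ℕ, ℓ.Prime → ℓ ∈ S → ℓ ∈ T₀)
    (𝒪' : Type) [CommRing 𝒪'] [IsDomain 𝒪'] [IsDiscreteValuationRing 𝒪']
    [IsAdicComplete (IsLocalRing.maximalIdeal 𝒪') 𝒪'] [Finite (IsLocalRing.ResidueField 𝒪')]
    [CharZero 𝒪'] (_hp : (p : 𝒪') ∈ IsLocalRing.maximalIdeal 𝒪')
    (χ : CuspForm.heckeAlgebra N 2 S →+* 𝒪') :
    ∃ (𝒪'' : Type) (_ : CommRing 𝒪'') (_ : IsDomain 𝒪'') (_ : IsDiscreteValuationRing 𝒪'')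
      (_ : IsAdicComplete (IsLocalRing.maximalIdeal 𝒪'') 𝒪'')
      (_ : Finite (IsLocalRing.ResidueField 𝒪'')) (_ : CharZero 𝒪'')
      (_ : Algebra 𝒪' 𝒪'') (_ : Module.Finite 𝒪' 𝒪'') (_ : IsLocalHom (algebraMap 𝒪' 𝒪'')),
    Function.Injective (algebraMap 𝒪' 𝒪'') ∧
    ∃ (hp'' : (p : 𝒪'') ∈ IsLocalRing.maximalIdeal 𝒪'') (ρ : GaloisRepAdic 𝒪''),
      (∀ (ℓ : ℕ) (hℓ : ℓ.Prime) (hℓN : ¬ ℓ ∣ N) (hℓS : ℓ ∉ S), ℓ ≠ p →
        ∀ A : ValuationSubring ℚbar, A.LiesOverPrime ℓ →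
          ∀ σ : Γℚ, A.IsFrobeniusAt σ ℓ →
            LinearMap.charpoly (ρ.ρ σ) =
              X ^ 2 - C (algebraMap 𝒪' 𝒪'' (χ (CuspForm.heckeAlgebra.T hℓ hℓN hℓS))) * X
                + C ((ℓ : 𝒪''))) ∧
      (∀ q : ℕ, q.Prime → ¬ q ∣ N → q ≠ p → ρ.IsUnramifiedAt q) ∧
      (∀ σ : Γℚ, LinearMap.det (ρ.ρ σ) = padicIntHom 𝒪'' hp'' (padicCyclo p σ)) ∧
      (IsConstituent F hp'' ((algebraMap 𝒪' 𝒪'').comp χ) ρ ∨
        ∃ v : ρ.V, v ∉ IsLocalRing.maximalIdeal 𝒪'' • (⊤ : Submodule 𝒪'' ρ.V) ∧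
          ∀ σ : Γℚ, ρ.ρ σ v ∈ Submodule.span 𝒪'' {v}) := by
  classical
  obtain ⟨k, hk, Y, Z, ρ₀, hZY, hRY, hρ₀, hcol⟩ := exists_eigenRep F hF S 𝒪' _hp χ
  let ω : Γℚ →* 𝒪' := (padicIntHom 𝒪' _hp).toMonoidHom.comp (padicCyclo p)
  let K := FractionRing 𝒪'
  let a : 𝒪' →+* K := algebraMap 𝒪' K
  let ρK : Γℚ →* Matrix (Fin k) (Fin k) K := a.mapMatrix.toMonoidHom.comp ρ₀
  let ωK : Γℚ →* K := a.toMonoidHom.comp ω
  have hKrel : ∀ σ t, RepLemmas.QuadRel (ρ₀ σ) t (ω σ) →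
      RepLemmas.QuadRel (ρK σ) (a t) (ωK σ) := fun σ t h => by
    have h1 := congrArg a.mapMatrix h
    rw [map_add, map_sub, map_mul, map_zero] at h1
    have hs : ∀ (c : 𝒪') (M : Matrix (Fin k) (Fin k) 𝒪'), a.mapMatrix (c • M) = a c • a.mapMatrix M :=
      fun c M => by ext i j; simp
    rw [hs, hs, map_one] at h1
    exact h1
  have hrelK : ∀ σ, ∃ t, RepLemmas.QuadRel (ρK σ) t (ωK σ) := fun σ =>
    (eigenRep_quadRel F hF T₀ hS _hp hZY ρ₀ hρ₀ hRY hcol σ).elim fun t ht => ⟨_, hKrel σ t ht⟩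
  obtain ⟨L, hLfin, σrep, hatt⟩ :=
    RepLemmas.exists_quadAttached_finite (AlgebraicClosure K) ρK ωK hrelK
  obtain ⟨hdvr, hfin, hloc, hinj, hfrac, hcompl, hres⟩ :=
    RepLemmas.integralClosure_isDVR 𝒪' K L
  haveI := hdvr
  haveI := hfrac
  haveI := hloc
  haveI := hcompl
  let O'' := integralClosure 𝒪' L
  let b : 𝒪' →+* O'' := algebraMap 𝒪' O''
  haveI : CharZero O'' := charZero_of_injective_ringHom hinj
  have hp'' : (p : O'') ∈ IsLocalRing.maximalIdeal O'' := by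
    rw [← map_natCast b]
    exact map_nonunit b _ _hp
  refine ⟨O'', inferInstance, inferInstance, hdvr, hcompl, hres inferInstance, inferInstance,
    inferInstance, hfin, hloc, hinj, hp'', ?_⟩
  let ρb : Γℚ →* Matrix (Fin k) (Fin k) O'' := b.mapMatrix.toMonoidHom.comp ρ₀
  let ω' : Γℚ →* O'' := b.toMonoidHom.comp ω
  have hω' : ∀ σ, ω' σ = padicIntHom O'' hp'' (padicCyclo p σ) := fun σ =>
    comp_padicIntHom 𝒪' _hp hp'' b _
  let f : O'' →+* L := algebraMap O'' L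
  have hf : Function.Injective f := IsFractionRing.injective O'' L
  have hbf : ∀ x, f (b x) = algebraMap K L (a x) := fun x => by
    rw [← IsScalarTower.algebraMap_apply, ← IsScalarTower.algebraMap_apply]
  have hρbf : ∀ σ, (ρb σ).map f = (ρK σ).map (algebraMap K L) := fun σ => by
    exact Matrix.ext fun i j => hbf _
  have hb1 : ∀ σ, ρ₀ σ = 1 → ρb σ = 1 := fun σ h => by
    show b.mapMatrix (ρ₀ σ) = 1
    rw [h, map_one]
  have hbcont : ∀ n, ∃ L' : IntermediateField ℚ ℚbar, FiniteDimensional ℚ L' ∧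
      ∀ σ : Γℚ, (∀ x ∈ L', σ x = x) →
        (∀ i j, (ρb σ - 1) i j ∈ IsLocalRing.maximalIdeal O'' ^ n) ∧
          ω' σ - 1 ∈ IsLocalRing.maximalIdeal O'' ^ n := fun n => by
    obtain ⟨L', hL', h⟩ := eigenRep_continuous F hF _hp hZY ρ₀ hρ₀ n
    have hmap : ∀ x ∈ IsLocalRing.maximalIdeal 𝒪' ^ n, b x ∈ IsLocalRing.maximalIdeal O'' ^ n :=
      fun x hx => Ideal.pow_right_mono
        (show (IsLocalRing.maximalIdeal 𝒪').map b ≤ IsLocalRing.maximalIdeal O'' from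
          Ideal.map_le_iff_le_comap.2 fun y hy => map_nonunit b y hy) n
        (Ideal.map_pow b (IsLocalRing.maximalIdeal 𝒪') n ▸ Ideal.mem_map_of_mem b hx)
    refine ⟨L', hL', fun σ hσ => ⟨fun i j => ?_, ?_⟩⟩
    · have h1 : ρb σ - 1 = b.mapMatrix (ρ₀ σ - 1) := by rw [map_sub, map_one]; rfl
      rw [h1]
      exact hmap _ ((h σ hσ).1 i j)
    · have h1 : ω' σ - 1 = b (ω σ - 1) := by rw [map_sub, map_one]; rfl
      rw [h1]
      exact hmap _ (h σ hσ).2
  have hinert : ∀ q : ℕ, q.Prime → ¬ q ∣ N → q ≠ p → ∀ A : ValuationSubring ℚbar,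
      A.LiesOverPrime q → ∀ σ ∈ A.inertiaSubgroupIn ℚ, ρb σ = 1 ∧ ω' σ = 1 := by
    intro q hq hqN hqp A hA σ hσ
    refine ⟨hb1 σ ?_, ?_⟩
    · rw [hρ₀, F.galMatrix_eq_one (hF.unramified q hq hqN hqp A hA σ hσ),
        Matrix.map_one _ (map_zero _) (map_one _), Matrix.mul_one, hZY]
    · show b (padicIntHom 𝒪' _hp (padicCyclo p σ)) = 1
      rw [padicCyclo_inertia p hq hqp hA hσ, map_one, map_one]
  -- a continuous unramified `τ` with the trace and determinant of `σrep` suffices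
  suffices key : ∃ (τ : Γℚ →* Matrix (Fin 2) (Fin 2) O'')
      (hτ : ∀ n : ℕ, ∃ L : IntermediateField ℚ ℚbar, FiniteDimensional ℚ L ∧
        ∀ σ : Γℚ, (∀ x ∈ L, σ x = x) → ∀ i j,
          (τ σ - 1) i j ∈ IsLocalRing.maximalIdeal O'' ^ n),
      (∀ σ, f (τ σ).trace = (σrep σ).trace ∧ f (τ σ).det = (σrep σ).det) ∧
      (∀ q : ℕ, q.Prime → ¬ q ∣ N → q ≠ p → ∀ A : ValuationSubring ℚbar, A.LiesOverPrime q →
        ∀ σ ∈ A.inertiaSubgroupIn ℚ, τ σ = 1) ∧
      (IsConstituent F hp'' (b.comp χ) (repOfMatrix τ hτ) ∨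
        ∀ σ : Γℚ, (τ σ) 1 0 = 0) by
    obtain ⟨τ, hτ, htd, hunr, halt⟩ := key
    have hdet : ∀ σ, (τ σ).det = ω' σ := fun σ => hf (by
      rw [(htd σ).2, hatt.det_eq]; exact (hbf _).symm)
    refine ⟨repOfMatrix τ hτ, fun ℓ hℓ hℓN hℓS hℓp A hA σ hσ => ?_,
      fun q hq hqN hqp A hA σ hσ => repOfMatrix_eq_one τ hτ (hunr q hq hqN hqp A hA σ hσ),
      fun σ => ?_, ?_⟩
    · have htr : (τ σ).trace = b (χ (CuspForm.heckeAlgebra.T hℓ hℓN hℓS)) := hf (by
        rw [(htd σ).1, hbf]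
        exact hatt.trace_eq σ _ (hKrel σ _
          (eigenRep_frobenius F hF _hp hZY ρ₀ hRY hcol hℓ hℓN hℓS hℓp hA hσ)))
      rw [charpoly_repOfMatrix, htr, hdet, hω', padicCyclo_frobenius p hℓ hℓp hA hσ, map_natCast]
    · rw [det_repOfMatrix, hdet, hω']
    · refine halt.imp id fun h10 => ⟨(Pi.single 0 1 : Fin 2 → O''), ?_, fun σ => ?_⟩
      · intro hv
        have hle : IsLocalRing.maximalIdeal O'' • (⊤ : Submodule O'' (Fin 2 → O'')) ≤
            Submodule.comap (LinearMap.proj 0) (IsLocalRing.maximalIdeal O'') :=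
          Submodule.smul_le.2 fun c hc y _ => by
            simpa using Ideal.mul_mem_right (y 0) _ hc
        have h1 := hle hv
        simp only [Submodule.mem_comap, LinearMap.proj_apply, Pi.single_eq_same] at h1
        exact (IsLocalRing.mem_maximalIdeal _).1 h1 isUnit_one
      · rw [repOfMatrix_apply, Submodule.mem_span_singleton]
        refine ⟨τ σ 0 0, funext fun i => ?_⟩
        fin_cases i <;> simp [h10 σ]
  rcases hatt.constituent with ⟨-, ι, π, hπι, hι⟩ | ⟨χ₁, v, i₀, hvi, hv, hdiag⟩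
  · -- constituent case
    obtain ⟨Y₁, Z₁, τ, hZY₁, hρY₁, hτdef, htr, hdet⟩ :=
      exists_lattice ρb ι π hπι σrep fun σ => by rw [hρbf]; exact hι σ
    have hτcont : ∀ n : ℕ, ∃ L : IntermediateField ℚ ℚbar, FiniteDimensional ℚ L ∧
        ∀ σ : Γℚ, (∀ x ∈ L, σ x = x) → ∀ i j,
          (τ σ - 1) i j ∈ IsLocalRing.maximalIdeal O'' ^ n := fun n => by
      obtain ⟨L', hL', h⟩ := hbcont n
      refine ⟨L', hL', fun σ hσ i j => ?_⟩
      rw [hτdef, show Z₁ * ρb σ * Y₁ - 1 = Z₁ * (ρb σ - 1) * Y₁ by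
        rw [Matrix.mul_sub, Matrix.sub_mul, Matrix.mul_one, hZY₁]]
      exact mul_sub_mem _ (h σ hσ).1 i j
    refine ⟨τ, hτcont, fun σ => ⟨htr σ, hdet σ⟩, fun q hq hqN hqp A hA σ hσ => ?_, Or.inl ?_⟩
    · rw [hτdef, (hinert q hq hqN hqp A hA σ hσ).1, Matrix.mul_one, hZY₁]
    · let Yb : Matrix (Fin F.H.r) (Fin 2) O'' := Y.map b * Y₁
      let Zb : Matrix (Fin 2) (Fin F.H.r) O'' := Z₁ * Z.map b
      have hZYb : Zb * Yb = 1 := by
        show Z₁ * Z.map b * (Y.map b * Y₁) = 1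
        rw [Matrix.mul_assoc, ← Matrix.mul_assoc (Z.map b), ← Matrix.map_mul, hZY,
          Matrix.map_one _ (map_zero _) (map_one _), Matrix.one_mul, hZY₁]
      refine ⟨Yb.mulVecLin, fun x y h => ?_, fun c y hc h => ?_, fun σ x => ?_, fun t x => ?_⟩
      · have h1 := congrArg (fun z => Zb *ᵥ z) h
        simpa [Matrix.mulVec_mulVec, hZYb] using h1
      · obtain ⟨x, hx⟩ := h
        exact ⟨Zb *ᵥ y, mem_colSpace_of_smul hZYb hc ⟨x, hx⟩⟩
      · rw [repOfMatrix_apply, Matrix.mulVecLin_apply, Matrix.mulVecLin_apply,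
          Matrix.mulVec_mulVec, Matrix.mulVec_mulVec]
        congr 1
        have hG : (F.galMatrix σ).map (padicIntHom O'' hp'') =
            ((F.galMatrix σ).map (padicIntHom 𝒪' _hp)).map b := by
          rw [Matrix.map_map]
          exact Matrix.ext fun i j => (comp_padicIntHom 𝒪' _hp hp'' b _).symm
        show Y.map b * Y₁ * τ σ = _ * (Y.map b * Y₁)
        rw [hG, ← Matrix.mul_assoc, ← Matrix.map_mul, hRY, Matrix.map_mul,
          Matrix.mul_assoc, ← hρY₁, ← Matrix.mul_assoc]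
        rfl
      · rw [Matrix.mulVecLin_apply, Matrix.mulVec_mulVec, ← Matrix.smul_mulVec]
        congr 1
        have hT := congrArg (fun M => Matrix.map M b) (hcol t)
        simp only [Matrix.map_mul] at hT
        show _ * (Y.map b * Y₁) = _ • (Y.map b * Y₁)
        rw [← Matrix.smul_mul, ← Matrix.mul_assoc]
        congr 1
        refine Eq.trans ?_ (hT.trans ?_)
        · congr 1
          ext i j
          simp
        · ext i j
          simp [b]
  · -- character case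
    let ι : Matrix (Fin k) (Fin 1) L := Matrix.of fun i _ => v i
    let π : Matrix (Fin 1) (Fin k) L := Matrix.of fun _ j => if j = i₀ then 1 else 0
    have hπι : π * ι = 1 := by
      ext i j
      fin_cases i; fin_cases j
      simp [π, ι, Matrix.mul_apply, hvi]
    have hχmul : ∀ x y, χ₁ (x * y) = χ₁ x * χ₁ y := map_mul χ₁
    let σ₁ : Γℚ →* Matrix (Fin 1) (Fin 1) L := (Matrix.scalar (Fin 1)).toMonoidHom.comp χ₁
    obtain ⟨Y₁, Z₁, τ₁, hZY₁, hρY₁, hτ₁def, htr₁, hdet₁⟩ :=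
      exists_lattice ρb ι π hπι σ₁ fun σ => by
        rw [hρbf]
        refine Matrix.ext fun i j => ?_
        have h1 := congrFun (hv σ) i
        simp only [Pi.smul_apply, smul_eq_mul] at h1
        show ((ρK σ).map (algebraMap K L) * ι) i j = (ι * Matrix.scalar (Fin 1) (χ₁ σ)) i j
        rw [Matrix.scalar_apply, Matrix.mul_diagonal]
        exact h1.trans (mul_comm _ _)
    let lam : Γℚ →* O'' := Matrix.detMonoidHom.comp τ₁
    have hlam : ∀ σ, f (lam σ) = χ₁ σ := fun σ => by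
      show f (τ₁ σ).det = _
      rw [hdet₁]
      simp [σ₁]
    let τ : Γℚ →* Matrix (Fin 2) (Fin 2) O'' :=
      { toFun := fun σ => Matrix.diagonal ![lam σ, ω' σ * lam σ⁻¹]
        map_one' := by
          rw [inv_one, map_one, map_one, one_mul]
          ext i j; fin_cases i <;> fin_cases j <;> simp
        map_mul' := fun x y => by
          rw [Matrix.diagonal_mul_diagonal, mul_inv_rev, map_mul, map_mul, map_mul]
          congr 1
          funext i
          fin_cases i <;> simp <;> ring }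
    have hτdef : ∀ σ, τ σ = Matrix.diagonal ![lam σ, ω' σ * lam σ⁻¹] := fun σ => rfl
    have hlam1 : ∀ σ, ρb σ = 1 → lam σ = 1 := fun σ h => by
      show (τ₁ σ).det = 1
      rw [hτ₁def, h, Matrix.mul_one, hZY₁, Matrix.det_one]
    have hτcont : ∀ n : ℕ, ∃ L : IntermediateField ℚ ℚbar, FiniteDimensional ℚ L ∧
        ∀ σ : Γℚ, (∀ x ∈ L, σ x = x) → ∀ i j,
          (τ σ - 1) i j ∈ IsLocalRing.maximalIdeal O'' ^ n := fun n => by
      obtain ⟨L', hL', h⟩ := hbcont n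
      refine ⟨L', hL', fun σ hσ i j => ?_⟩
      have hlamc : ∀ σ : Γℚ, (∀ x ∈ L', σ x = x) →
          lam σ - 1 ∈ IsLocalRing.maximalIdeal O'' ^ n := fun σ hσ => by
        show (τ₁ σ).det - 1 ∈ _
        have h1 : (τ₁ σ - 1) 0 0 ∈ IsLocalRing.maximalIdeal O'' ^ n := by
          rw [hτ₁def, show Z₁ * ρb σ * Y₁ - 1 = Z₁ * (ρb σ - 1) * Y₁ by
            rw [Matrix.mul_sub, Matrix.sub_mul, Matrix.mul_one, hZY₁]]
          exact mul_sub_mem _ (h σ hσ).1 _ _
        simpa [Matrix.det_fin_one] using h1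
      have hinv : ∀ x ∈ L', σ⁻¹ x = x := fun x hx => by
        conv_lhs => rw [← hσ x hx]
        exact σ.symm_apply_apply x
      have h2 : ω' σ * lam σ⁻¹ - 1 ∈ IsLocalRing.maximalIdeal O'' ^ n := by
        rw [show ω' σ * lam σ⁻¹ - 1 = (ω' σ - 1) * lam σ⁻¹ + (lam σ⁻¹ - 1) by ring]
        exact Ideal.add_mem _ (Ideal.mul_mem_right _ _ (h σ hσ).2) (hlamc _ hinv)
      rw [hτdef]
      fin_cases i <;> fin_cases j <;> simp [hlamc σ hσ, h2]
    refine ⟨τ, hτcont, fun σ => ⟨?_, ?_⟩, fun q hq hqN hqp A hA σ hσ => ?_, Or.inr fun σ => ?_⟩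
    · rw [hτdef, hdiag, Matrix.trace_fin_two, Matrix.trace_fin_two]
      simp [hlam, ω', ωK, hbf]
    · rw [hτdef, hdiag, Matrix.det_diagonal, Matrix.det_diagonal, Fin.prod_univ_two,
        Fin.prod_univ_two]
      simp [hlam, ω', ωK, hbf]
    · rw [hτdef, hlam1 σ (hinert q hq hqN hqp A hA σ hσ).1,
        hlam1 σ⁻¹ (hinert q hq hqN hqp A hA σ⁻¹ (inv_mem hσ)).1,
        (hinert q hq hqN hqp A hA σ hσ).2, one_mul]
      ext i j
      fin_cases i <;> fin_cases j <;> simp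
    · rw [hτdef]
      simp

end Fermat.Agent.GaloisAdic
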