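/-
Galois representations from `J₀(N)`: the facts used about the Jacobian, and the statement used for
S30.
-/
import Fermat.Agent.GaloisAdic.Main
import Fermat.Agent.Torsion.Main
import Fermat.Agent.HeckeCohom.MatrixRep
import Fermat.Agent.HeckeJ.Operator
import Fermat.Agent.ES.SpecialMain
import Fermat.Agent.MW.WeakStabilizer

set_option autoImplicit false

noncomputable section

namespace Fermat.Agent.GaloisAdic

variable (N : ℕ) [NeZero N] (p : ℕ) [Fact p.Prime]

/-- The integer Hecke matrices on parabolic homomorphisms. -/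
def parHeckeMatrices : HeckeMatrices N :=
  ⟨HeckeCohom.rk N, HeckeCohom.actMatrix N, HeckeCohom.actMatrix_injective N⟩

variable {N} in
theorem heckeAct_heckeGenAt (R : Type*) [Ring R] (A : Type*) [AddCommGroup A] [Module R A]
    (q : Nat.Primes) :
    HeckeCohom.heckeAct N R A (heckeGenAt N q) = HeckeCohom.heckeParEll N R A q := by
  unfold heckeGenAt
  split_ifs with h
  · exact HeckeCohom.heckeAct_U R A q.2 h _
  · exact HeckeCohom.heckeAct_T R A q.2 h _

/-- Torsion of `J₀(N)` as a Hecke module (uniformisation). -/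
theorem exists_heckeMatrices_isTorsionIso :
    ∃ H : HeckeMatrices N, ∀ n, ∃ e, H.IsTorsionIso p n e := by
  refine ⟨parHeckeMatrices N, fun n => ?_⟩
  haveI : NeZero (p ^ n) := ⟨pow_ne_zero _ (Fact.out (p := p.Prime)).ne_zero⟩
  refine ⟨(Torsion.jTorsion N (p ^ n)).subtype.comp (Torsion.torsionCoord N (p ^ n)).toAddMonoidHom,
    ?_, fun x => ?_, fun q v => ?_⟩
  · exact Subtype.val_injective.comp (Torsion.torsionCoord N (p ^ n)).injective
  · constructor
    · rintro ⟨v, rfl⟩
      exact Torsion.mem_jTorsion.1 (Subtype.coe_prop _)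
    · intro hx
      obtain ⟨v, hv⟩ := (Torsion.torsionCoord N (p ^ n)).surjective ⟨x, Torsion.mem_jTorsion.2 hx⟩
      exact ⟨v, congrArg Subtype.val hv⟩
  · let P := ParHom.parEquiv (ParHom.neg_one_mem_Gamma0 N) ℤ (ZMod (p ^ n))
    show ModularCurve.heckeOperatorBar N q (Torsion.torsionEquiv N (p ^ n) (P.symm v) :
        ModularCurve.JZero N) = (Torsion.torsionEquiv N (p ^ n) (P.symm _) : ModularCurve.JZero N)
    rw [Torsion.heckeOperatorBar_torsionEquiv]
    congr 2
    apply P.injective
    rw [LinearEquiv.apply_symm_apply]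
    funext i
    have h := HeckeCohom.heckeAct_gen (R := ℤ) (A := ZMod (p ^ n)) (heckeGenAt N q) (P.symm v) i
    rw [heckeAct_heckeGenAt] at h
    refine h.trans ?_
    rw [Matrix.mulVec, dotProduct]
    refine Finset.sum_congr rfl fun j _ => ?_
    have hj : ((P.symm v : _) : Additive (CongruenceSubgroup.Gamma0 N) →+ ZMod (p ^ n))
        (Additive.ofMul (HeckeCohom.gen N j)) = v j := by
      rw [HeckeCohom.gen, ← ParHom.parEquiv_apply (R := ℤ)]
      exact congrFun (P.apply_symm_apply v) j
    rw [hj]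
    simp [HeckeMatrices.genMod, parHeckeMatrices]
    rfl

/-- Points of `J₀(N)` are defined over number fields. -/
theorem exists_finiteDimensional_forall_smul_eq (x : ModularCurve.JZero N) :
    ∃ L : IntermediateField ℚ (AlgebraicClosure ℚ), FiniteDimensional ℚ L ∧
      ∀ σ : AlgebraicClosure ℚ ≃ₐ[ℚ] AlgebraicClosure ℚ, (∀ y ∈ L, σ y = y) → σ • x = x := by
  obtain ⟨L, hL, hLx⟩ := (krullTopology_mem_nhds_one_iff ℚ (AlgebraicClosure ℚ) _).1
    ((MW.isOpen_stabilizer_jZero x).mem_nhds (one_mem _))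
  exact ⟨L, hL, fun σ hσ => MulAction.mem_stabilizer_iff.1
    (hLx ((IntermediateField.mem_fixingSubgroup_iff L σ).2 hσ))⟩

/-- A compatible frame exists. -/
theorem nonempty_torsionFrame : Nonempty (TorsionFrame N p) :=
  let ⟨H, h⟩ := exists_heckeMatrices_isTorsionIso N p
  exists_torsionFrame H h

/-- The properties of the Galois action on the torsion of `J₀(N)`. -/
theorem torsionFacts : TorsionFacts N p where
  smooth := exists_finiteDimensional_forall_smul_eq N
  hecke_comm σ q x := (HeckeJ.heckeOperatorBar_galois_smul N q σ x).symm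
  unramified q hq hqN hqp A hA σ hσ n x hx := ES.smul_eq_self_of_inertia hq
    (fun h => (hq.dvd_mul.1 h).elim hqN fun h' =>
      hqp ((Nat.prime_dvd_prime_iff_eq hq Fact.out).1 h')) hA hσ ⟨n, hx⟩
  frobenius q hqN hqp A hA τ hτ n x hx := ES.frobenius_quadratic q.2
    (fun h => (q.2.dvd_mul.1 h).elim hqN fun h' =>
      hqp ((Nat.prime_dvd_prime_iff_eq q.2 Fact.out).1 h')) hA hτ ⟨n, hx⟩

end Fermat.Agent.GaloisAdic
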